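import Fermat.Agent.S48.M.HX.Transfer
import Fermat.Agent.S29.HeckeX

/-!
# S48 / M / HX : conjugation operators on `XL L`, finiteness of `XL L`   (owner helper26)

`g ∈ SL(2,ℤ)` normalising `L.Γ` (`Nrm L g`).  `conjX hg : XL L → XL L`, `(conjX hg c) γ = c (g γ g⁻¹)`.

## key S48/HX-C1 : `conjG`, `exists_conjX`, `conjX_of_mem`, `conjX_mul`   (~120 lines)
* `exists_conjX` : `c ∘ conjG` is additive; parabolic: `trace (g γ g⁻¹) = trace γ` (`Matrix.trace_mul_cycle`/`trace_mul_comm`, `coe_mul`, `g⁻¹ g = 1`).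
* `conjX_of_mem` : `c (g γ g⁻¹) = c g + c γ - c g = c γ`.
* `conjX_mul` : `(conjX (g g') c) γ = c (g g' γ g'⁻¹ g⁻¹) = (conjX g c) (g' γ g'⁻¹)`.
## key S48/HX-C2 : `IsFam.conj`, `IsFam.conjX_mul_tr`   (~150 lines)
* `conj` : family `A'_i = g A_i g⁻¹`.  `det` : `Matrix.det_mul`, `det g = 1`.  `red` : `g A_i g⁻¹ = ε g A_j g⁻¹` gives `A_i = (g⁻¹ ε g) A_j`.
  `ex` : `γ' = g γ g⁻¹` with `γ = g⁻¹ γ' g ∈ Γ`; `A'_i γ' = g A_i γ g⁻¹ = g δ A_j g⁻¹ = (g δ g⁻¹) A'_j`.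
* `conjX_mul_tr` : for `D : HDataL L A γ` the data `σ' = D.σ`, `δ'_i = g δ_i g⁻¹` is an `HDataL L A' (g γ g⁻¹)`;
  `(conjX (tr' c)) γ = (tr' c) (g γ g⁻¹) = ∑ c (g δ_i g⁻¹) = ∑ (conjX c) (δ_i) = (tr (conjX c)) γ`.
## key S48/HX-FF : `finiteIndex_Γ`, `fg_Γ`, `finite_XL`, `free_XL`   (~60 lines)
  `Gamma n` has finite index (`NeZero n`; Mathlib instance for `CongruenceSubgroup.Gamma`), `Subgroup.finiteIndex_of_le L.Gamma_le`; `Subgroup.fg_of_index_ne_zero` with `S29.HeckeXAux.fg_SL2Z`;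
  then copy `S29.finite_XN`, `S29.free_XN` (`S29.HeckeXAux.finite_hom`).
-/

set_option autoImplicit false

open ModularCurve.Period Fermat.Agent.S24 Fermat.Agent.S29
open scoped MatrixGroups

noncomputable section

namespace Fermat.Agent.S48.M

variable {L : Lvl} {ι : Type}

/-- `g` normalises `L.Γ` -/
def Nrm (L : Lvl) (g : SL(2, ℤ)) : Prop := ∀ γ : SL(2, ℤ), γ ∈ L.Γ ↔ g * γ * g⁻¹ ∈ L.Γ

theorem Nrm.of_mem {g : SL(2, ℤ)} (hg : g ∈ L.Γ) : Nrm L g := fun γ =>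
  ⟨fun h => L.Γ.mul_mem (L.Γ.mul_mem hg h) (L.Γ.inv_mem hg), fun h => by
    have := L.Γ.mul_mem (L.Γ.mul_mem (L.Γ.inv_mem hg) h) hg
    simpa [mul_assoc] using this⟩

theorem Nrm.mul {g g' : SL(2, ℤ)} (hg : Nrm L g) (hg' : Nrm L g') : Nrm L (g * g') := fun γ => by
  rw [hg' γ, hg (g' * γ * g'⁻¹)]
  simp [mul_assoc]

theorem Nrm.inv {g : SL(2, ℤ)} (hg : Nrm L g) : Nrm L g⁻¹ := fun γ => by
  rw [hg (g⁻¹ * γ * g⁻¹⁻¹)]
  simp [mul_assoc]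

/-- conjugation by `g` on `L.Γ` -/
def conjG {g : SL(2, ℤ)} (hg : Nrm L g) : L.Γ →* L.Γ where
  toFun γ := ⟨g * γ * g⁻¹, (hg γ).1 γ.2⟩
  map_one' := Subtype.ext (by simp)
  map_mul' a b := Subtype.ext (by simp [mul_assoc])

@[simp] theorem coe_conjG {g : SL(2, ℤ)} (hg : Nrm L g) (γ : L.Γ) :
    ((conjG hg γ : L.Γ) : SL(2, ℤ)) = g * γ * g⁻¹ := rfl

theorem hxC1_trace_conj (g γ : SL(2, ℤ)) :
    ((g * γ * g⁻¹ : SL(2, ℤ)) : M2).trace = (γ : M2).trace := by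
  rw [Matrix.SpecialLinearGroup.coe_mul, Matrix.SpecialLinearGroup.coe_mul, Matrix.trace_mul_cycle,
    ← Matrix.SpecialLinearGroup.coe_mul, inv_mul_cancel, Matrix.SpecialLinearGroup.coe_one,
    Matrix.one_mul]

/-- [S48/HX-C1] -/
theorem exists_conjX {g : SL(2, ℤ)} (hg : Nrm L g) : ∃ T : Module.End ℤ (XL L), ∀ (c : XL L) (γ : L.Γ),
    (T c : Additive L.Γ →+ ℤ) (Additive.ofMul γ) =
      (c : Additive L.Γ →+ ℤ) (Additive.ofMul (conjG hg γ)) := by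
  refine ⟨{ toFun := fun c => ⟨(c : Additive L.Γ →+ ℤ).comp (MonoidHom.toAdditive (conjG hg)), ?_⟩
            map_add' := fun _ _ => rfl
            map_smul' := fun _ _ => rfl }, fun c γ => rfl⟩
  intro γ hγ
  refine c.2 (conjG hg γ) ?_
  rw [coe_conjG, hxC1_trace_conj]
  exact hγ

/-- `c ↦ c ∘ (conjugation by g)` -/
def conjX {g : SL(2, ℤ)} (hg : Nrm L g) : Module.End ℤ (XL L) := (exists_conjX hg).choose

theorem conjX_apply {g : SL(2, ℤ)} (hg : Nrm L g) (c : XL L) (γ : L.Γ) :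
    (conjX hg c : Additive L.Γ →+ ℤ) (Additive.ofMul γ) =
      (c : Additive L.Γ →+ ℤ) (Additive.ofMul (conjG hg γ)) := (exists_conjX hg).choose_spec c γ

theorem hxC1_ext {T T' : Module.End ℤ (XL L)} (h : ∀ (c : XL L) (γ : L.Γ),
    (T c : Additive L.Γ →+ ℤ) (Additive.ofMul γ) = (T' c : Additive L.Γ →+ ℤ) (Additive.ofMul γ)) :
    T = T' :=
  LinearMap.ext fun c => Subtype.ext (AddMonoidHom.ext fun γ => h c (Additive.toMul γ))

/-- [S48/HX-C1] -/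
theorem conjX_of_mem {g : SL(2, ℤ)} (hg : Nrm L g) (h : g ∈ L.Γ) : conjX hg = 1 := by
  refine hxC1_ext fun c γ => ?_
  rw [conjX_apply]
  have : conjG hg γ = (⟨g, h⟩ : L.Γ) * γ * (⟨g, h⟩ : L.Γ)⁻¹ := Subtype.ext rfl
  rw [this, ofMul_mul, ofMul_mul, ofMul_inv, map_add, map_add, map_neg]
  show _ = (c : Additive L.Γ →+ ℤ) (Additive.ofMul γ)
  ring

/-- [S48/HX-C1] -/
theorem conjX_mul {g g' : SL(2, ℤ)} (hg : Nrm L g) (hg' : Nrm L g') (h : Nrm L (g * g')) :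
    conjX h = conjX hg' * conjX hg := by
  refine hxC1_ext fun c γ => ?_
  rw [conjX_apply]
  show _ = (conjX hg' (conjX hg c) : Additive L.Γ →+ ℤ) (Additive.ofMul γ)
  rw [conjX_apply, conjX_apply]
  congr 2
  refine Subtype.ext ?_
  simp [mul_assoc]

theorem hxC2_inv_mul (g : SL(2, ℤ)) : ((g⁻¹ : SL(2, ℤ)) : M2) * (g : M2) = 1 := by
  rw [← Matrix.SpecialLinearGroup.coe_mul, inv_mul_cancel, Matrix.SpecialLinearGroup.coe_one]

theorem hxC2_mul_inv (g : SL(2, ℤ)) : (g : M2) * ((g⁻¹ : SL(2, ℤ)) : M2) = 1 := by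
  rw [← Matrix.SpecialLinearGroup.coe_mul, mul_inv_cancel, Matrix.SpecialLinearGroup.coe_one]

/-- conjugating a relation -/
theorem hxC2_rel (g : SL(2, ℤ)) {X Y : M2} {γ δ : SL(2, ℤ)} (h : X * (γ : M2) = (δ : M2) * Y) :
    ((g : M2) * X * ((g⁻¹ : SL(2, ℤ)) : M2)) * ((g * γ * g⁻¹ : SL(2, ℤ)) : M2) =
      ((g * δ * g⁻¹ : SL(2, ℤ)) : M2) * ((g : M2) * Y * ((g⁻¹ : SL(2, ℤ)) : M2)) := by
  simp only [Matrix.SpecialLinearGroup.coe_mul]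
  calc (g : M2) * X * ((g⁻¹ : SL(2, ℤ)) : M2) * ((g : M2) * (γ : M2) * ((g⁻¹ : SL(2, ℤ)) : M2))
      = (g : M2) * X * (((g⁻¹ : SL(2, ℤ)) : M2) * (g : M2)) * (γ : M2) * ((g⁻¹ : SL(2, ℤ)) : M2) := by
        simp only [Matrix.mul_assoc]
    _ = (g : M2) * (X * (γ : M2)) * ((g⁻¹ : SL(2, ℤ)) : M2) := by
        rw [hxC2_inv_mul, Matrix.mul_one]; simp only [Matrix.mul_assoc]
    _ = (g : M2) * (δ : M2) * (((g⁻¹ : SL(2, ℤ)) : M2) * (g : M2)) * Y * ((g⁻¹ : SL(2, ℤ)) : M2) := by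
        rw [h, hxC2_inv_mul, Matrix.mul_one]; simp only [Matrix.mul_assoc]
    _ = _ := by simp only [Matrix.mul_assoc]

/-- [S48/HX-C2] -/
theorem IsFam.conj {A : ι → M2} (hA : IsFam L A) {g : SL(2, ℤ)} (hg : Nrm L g) :
    IsFam L (fun i => (g : M2) * A i * ((g⁻¹ : SL(2, ℤ)) : M2)) := by
  refine ⟨fun i => ?_, fun ε i j h => ?_, fun γ i => ?_⟩
  · rw [Matrix.det_mul, Matrix.det_mul, Matrix.SpecialLinearGroup.det_coe,
      Matrix.SpecialLinearGroup.det_coe, one_mul, mul_one]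
    exact hA.det_ne i
  · refine hA.red (conjG hg.inv ε) i j ?_
    have h2 : ((g⁻¹ : SL(2, ℤ)) : M2) * ((g : M2) * A i * ((g⁻¹ : SL(2, ℤ)) : M2)) * (g : M2) =
        ((g⁻¹ : SL(2, ℤ)) : M2) * (((ε : SL(2, ℤ)) : M2) *
          ((g : M2) * A j * ((g⁻¹ : SL(2, ℤ)) : M2))) * (g : M2) := by
      rw [h]
    have h3 : ((g⁻¹ : SL(2, ℤ)) : M2) * ((g : M2) * A i * ((g⁻¹ : SL(2, ℤ)) : M2)) * (g : M2) =
        (((g⁻¹ : SL(2, ℤ)) : M2) * (g : M2)) * A i * (((g⁻¹ : SL(2, ℤ)) : M2) * (g : M2)) := by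
      simp only [Matrix.mul_assoc]
    have h4 : ((g⁻¹ : SL(2, ℤ)) : M2) * (((ε : SL(2, ℤ)) : M2) *
          ((g : M2) * A j * ((g⁻¹ : SL(2, ℤ)) : M2))) * (g : M2) =
        ((g⁻¹ : SL(2, ℤ)) : M2) * ((ε : SL(2, ℤ)) : M2) * (g : M2) * A j *
          (((g⁻¹ : SL(2, ℤ)) : M2) * (g : M2)) := by
      simp only [Matrix.mul_assoc]
    rw [h3, h4, hxC2_inv_mul, Matrix.one_mul, Matrix.mul_one, Matrix.mul_one] at h2
    rw [h2, coe_conjG, inv_inv]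
    simp only [Matrix.SpecialLinearGroup.coe_mul]
  · obtain ⟨j, δ, h⟩ := hA.ex (conjG hg.inv γ) i
    refine ⟨j, conjG hg δ, ?_⟩
    have := hxC2_rel g h
    rw [coe_conjG] at this
    rw [coe_conjG, ← this]
    congr 2
    simp [mul_assoc]

/-- conjugated data -/
def hxC2_data {A : ι → M2} {g : SL(2, ℤ)} (hg : Nrm L g) {γ : L.Γ} (D : HDataL L A γ) :
    HDataL L (fun i => (g : M2) * A i * ((g⁻¹ : SL(2, ℤ)) : M2)) (conjG hg γ) where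
  σ := D.σ
  δ i := conjG hg (D.δ i)
  rel i := hxC2_rel g (D.rel i)

/-- [S48/HX-C2] -/
theorem IsFam.conjX_mul_tr [Fintype ι] {A : ι → M2} (hA : IsFam L A) {g : SL(2, ℤ)} (hg : Nrm L g) :
    conjX hg * (hA.conj hg).tr = hA.tr * conjX hg := by
  refine hxC1_ext fun c γ => ?_
  show (conjX hg ((hA.conj hg).tr c) : Additive L.Γ →+ ℤ) (Additive.ofMul γ) =
    (hA.tr (conjX hg c) : Additive L.Γ →+ ℤ) (Additive.ofMul γ)
  obtain ⟨D⟩ := hA.nonempty γ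
  rw [conjX_apply, (hA.conj hg).isTransfer_tr c _ (hxC2_data hg D), hA.isTransfer_tr (conjX hg c) γ D]
  refine Finset.sum_congr rfl fun i _ => ?_
  rw [conjX_apply]
  rfl

/-! ### finiteness -/

/-- [S48/HX-FF] -/
instance finiteIndex_Γ (L : Lvl) : L.Γ.FiniteIndex := by
  have : NeZero L.n := ⟨L.n_ne⟩
  exact Subgroup.finiteIndex_of_le L.Gamma_le

/-- [S48/HX-FF] -/
instance fg_Γ (L : Lvl) : Group.FG L.Γ := by
  have := S29.HeckeXAux.fg_SL2Z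
  exact Subgroup.fg_of_index_ne_zero L.Γ

/-- [S48/HX-FF] -/
instance finite_XL (L : Lvl) : Module.Finite ℤ (XL L) := by
  have := S29.HeckeXAux.finite_hom L.Γ
  infer_instance

/-- [S48/HX-FF] -/
instance free_XL (L : Lvl) : Module.Free ℤ (XL L) := by
  have : Module.IsTorsionFree ℤ (XL L) :=
    Function.Injective.moduleIsTorsionFree (N := L.Γ → ℤ)
      (fun c γ => (c : Additive L.Γ →+ ℤ) (Additive.ofMul γ))
      (fun c c' h => Subtype.ext (AddMonoidHom.ext fun γ => congrFun h (Additive.toMul γ)))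
      (fun _ _ => rfl)
  infer_instance

end Fermat.Agent.S48.M
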