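import Fermat.Agent.S48.M.HX.Ops
import Fermat.Agent.S48.M.IfAlg
import Fermat.Agent.S48.M.Fld.Degree
import Fermat.Agent.S29.K3

/-!
# S48 / M / HX : (K3) the multiplicative Hecke operator `TlG` and the diamonds on Kummer elements   (helper26)

Port of `S29/K3.lean`.
* `iotaL_TlG` : `iotaL (TlG M ℓ u) = ∏ i : Option (Fin ℓ), (iotaL u) ∘ (matTG M ℓ i)` (`merGL (glK M ℓ i)`), from
  `S24.norm_eq_prod_of_card` with the `ℓ + 1` embeddings `merAct (A i)⁻¹ ∘ iotaL (lvG M ℓ)`, `A i ∈ ±Γ₁(M)` explicit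
  (`CosetDataG`): `ℓ w - M t = 1`, `A_k = [1, k + t; M, M k + w ℓ]`, `h = [ℓ, t; M, w]`, `[ℓ,0;0,1] A_k = h [1,k;0,ℓ] = (h g⁻¹) (g [1,k;0,ℓ])`.
* `isKummerL_TlG_of_finrank`.   (The diamonds: `K3Dia.lean`, helper8.)
-/

set_option autoImplicit false

open UpperHalfPlane ModularForm ModularCurve AlgebraicCurve CongruenceSubgroup
open ModularCurve.Period Fermat.Agent.S24 Fermat.Agent.S29 Fermat.Agent.S29.K3 Fermat.Agent.S16.Lower
open Matrix.SpecialLinearGroup (mapGL)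
open scoped MatrixGroups Manifold

noncomputable section

namespace Fermat.Agent.S48.M

variable (M : ℕ) [NeZero M]

/-- real versions of the representatives `matTG M ℓ` -/
def glK (ℓ : ℕ) : Option (Fin ℓ) → GL (Fin 2) ℝ
  | none => PeriodAux.glT ℓ none
  | some j => mapGL ℝ (gamD M (unitOf M ℓ)⁻¹) * PeriodAux.glT ℓ (some j)

theorem glK_val {ℓ : ℕ} (hℓ : ℓ ≠ 0) (i : Option (Fin ℓ)) :
    (glK M ℓ i).val = (matTG M ℓ i).map (Int.cast : ℤ → ℝ) := by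
  cases i with
  | none => exact PeriodAux.glT_val hℓ none
  | some j =>
    show (mapGL ℝ (gamD M (unitOf M ℓ)⁻¹) * PeriodAux.glT ℓ (some j)).val =
      (((gamD M (unitOf M ℓ)⁻¹ : SL(2, ℤ)) : M2) * matU ℓ j).map (Int.cast : ℤ → ℝ)
    have h1 : (mapGL ℝ (gamD M (unitOf M ℓ)⁻¹)).val =
        ((gamD M (unitOf M ℓ)⁻¹ : SL(2, ℤ)) : M2).map (Int.cast : ℤ → ℝ) := by
      ext i j; simp
    rw [Units.val_mul, h1, PeriodAux.glT_val hℓ (some j)]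
    exact (Matrix.map_mul (f := Int.castRingHom ℝ)).symm

theorem glK_det_pos (ℓ : ℕ) (i : Option (Fin ℓ)) : 0 < (glK M ℓ i).det.val := by
  cases i with
  | none => exact glT_det_pos' ℓ none
  | some j =>
    show 0 < (mapGL ℝ (gamD M (unitOf M ℓ)⁻¹) * PeriodAux.glT ℓ (some j)).det.val
    rw [map_mul, Units.val_mul]
    exact mul_pos (det_SL_pos _) (glT_det_pos' ℓ _)

/-- the explicit coset data -/
structure CosetDataG (ℓ : ℕ) where
  A : Option (Fin ℓ) → SL(2, ℤ)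
  δ : Option (Fin ℓ) → SL(2, ℤ)
  hA : ∀ i, A i ∈ GG M 1
  hδ : ∀ i, δ i ∈ GG M 1
  rel : ∀ i, matD ℓ * (A i : M2) = (δ i : M2) * matTG M ℓ i
  inj : ∀ i j, A i * (A j)⁻¹ ∈ GG M ℓ → i = j

theorem nonempty_cosetDataG {ℓ : ℕ} (hℓ : ℓ.Prime) (hM : ¬ ℓ ∣ M) :
    Nonempty (CosetDataG M ℓ) := by
  have hcopN : Nat.Coprime ℓ M := (Nat.Prime.coprime_iff_not_dvd hℓ).mpr hM
  have hcop : IsCoprime (ℓ : ℤ) (M : ℤ) := Nat.isCoprime_iff_coprime.mpr hcopN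
  obtain ⟨w, b, hwb⟩ := hcop
  set t : ℤ := -b with ht
  have hwt : (ℓ : ℤ) * w - M * t = 1 := by rw [ht]; linarith
  let Ak : Fin ℓ → SL(2, ℤ) := fun k =>
    ⟨!![1, (k : ℕ) + t; (M : ℤ), M * (k : ℕ) + w * ℓ], by
      rw [Matrix.det_fin_two_of]; linarith⟩
  let hh : SL(2, ℤ) := ⟨!![(ℓ : ℤ), t; (M : ℤ), w], by
      rw [Matrix.det_fin_two_of]; linarith⟩
  set g : SL(2, ℤ) := gamD M (unitOf M ℓ)⁻¹ with hg
  have hNℓ : ∀ z : ℤ, ((M * ℓ : ℕ) : ℤ) ∣ M * z → (ℓ : ℤ) ∣ z := by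
    intro z hz
    have hN0 : (M : ℤ) ≠ 0 := by exact_mod_cast NeZero.ne M
    rw [Nat.cast_mul] at hz
    exact (mul_dvd_mul_iff_left hN0).mp hz
  have hℓ1 : ¬ (ℓ : ℤ) ∣ 1 := by
    intro h
    have := Int.natCast_dvd_natCast.mp (by simpa using h : (ℓ : ℤ) ∣ ((1 : ℕ) : ℤ))
    exact hℓ.one_lt.ne' (Nat.dvd_one.mp this)
  have hA : ∀ i : Option (Fin ℓ), (i.elim 1 Ak : SL(2, ℤ)) ∈ GG M 1 := by
    rintro (_ | k)
    · exact one_mem _
    · rw [mem_GG_one_iff]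
      refine ⟨?_, Or.inl ?_⟩
      · show (M : ℤ) ∣ (!![1, ((k : ℕ) : ℤ) + t; (M : ℤ), M * (k : ℕ) + w * ℓ] : M2) 1 0
        simp
      · show (((!![1, ((k : ℕ) : ℤ) + t; (M : ℤ), M * (k : ℕ) + w * ℓ] : M2) 1 1 : ℤ) : ZMod M) = 1
        have h1 : (!![1, ((k : ℕ) : ℤ) + t; (M : ℤ), M * (k : ℕ) + w * ℓ] : M2) 1 1 =
            1 + M * ((k : ℕ) + t) := by
          simp
          linarith
        rw [h1]
        simp
  have hrel : ∀ i : Option (Fin ℓ), matD ℓ * ((i.elim 1 Ak : SL(2, ℤ)) : M2) =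
      ((i.elim 1 (fun _ => hh * g⁻¹) : SL(2, ℤ)) : M2) * matTG M ℓ i := by
    rintro (_ | k)
    · simp [matTG]
    · show matD ℓ * !![1, ((k : ℕ) : ℤ) + t; (M : ℤ), M * (k : ℕ) + w * ℓ] =
        ((hh * g⁻¹ : SL(2, ℤ)) : M2) * ((g : M2) * matU ℓ k)
      rw [Matrix.SpecialLinearGroup.coe_mul, Matrix.mul_assoc, ← Matrix.mul_assoc _ (g : M2),
        hxC2_inv_mul, Matrix.one_mul]
      show _ = !![(ℓ : ℤ), t; (M : ℤ), w] * matU ℓ k
      rw [matD, matU]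
      ext i j
      fin_cases i <;> fin_cases j <;> simp [Matrix.mul_apply, Fin.sum_univ_two]
      ring
  refine ⟨{ A := fun i => i.elim 1 Ak
            δ := fun i => i.elim 1 (fun _ => hh * g⁻¹)
            hA := hA, hδ := ?_, rel := hrel, inj := ?_ }⟩
  · intro i
    rw [mem_GG_one_iff]
    refine InDel.of_mul (X := matTG M ℓ i) ?_ (inDel_matTG M hcopN i) ?_
    · rw [← hrel i]
      exact (inDel_matTG M hcopN none).mul ((mem_GG_one_iff _).mp (hA i))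
    · rw [det_matTG]
      exact ⟨w, b, hwb⟩
  · intro i j hij
    have hij := (mem_GG.mp hij).1
    rw [Gamma0_mem, mul_inv_one_zero, ZMod.intCast_zmod_eq_zero_iff_dvd] at hij
    rcases i with _ | k <;> rcases j with _ | k'
    · rfl
    · exfalso
      have h1 : ((M * ℓ : ℕ) : ℤ) ∣ M * (-1) := by simpa [Ak] using hij
      exact hℓ1 ((dvd_neg).mp (hNℓ _ h1))
    · exfalso
      have h1 : ((M * ℓ : ℕ) : ℤ) ∣ M * 1 := by simpa [Ak] using hij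
      exact hℓ1 (hNℓ _ h1)
    · have h1 : ((M * ℓ : ℕ) : ℤ) ∣ M * (M * ((k' : ℕ) - (k : ℕ) : ℤ)) := by
        have : (M : ℤ) * (M * ((k' : ℕ) - (k : ℕ) : ℤ)) =
            (M : ℤ) * (M * (k' : ℕ) + w * ℓ) - (M * (k : ℕ) + w * ℓ) * M := by ring
        rw [this]
        simpa [Ak] using hij
      have h2 := hNℓ _ h1
      have h3 : (ℓ : ℤ) ∣ ((k' : ℕ) - (k : ℕ) : ℤ) :=
        (IsCoprime.dvd_of_dvd_mul_left ⟨w, b, hwb⟩ h2)
      have h4 : ((k' : ℕ) : ℤ) - (k : ℕ) = 0 := by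
        apply Int.eq_zero_of_abs_lt_dvd h3
        have hk := k.2
        have hk' := k'.2
        rw [abs_lt]
        constructor <;> omega
      congr 1
      apply Fin.ext
      omega

theorem merGL_SL_iotaL (L : Lvl) {g : SL(2, ℤ)} (hg : g ∈ L.Γ) (θ : FL L) :
    merGL (mapGL ℝ g) (det_SL_pos g) (iotaL L θ) = iotaL L θ := by
  have h := merAct_eq g⁻¹ (iotaL L θ)
  rw [merAct_iotaL_of_mem L (inv_mem hg)] at h
  exact (h.trans (merGL_congr (by rw [inv_inv] : mapGL ℝ g⁻¹⁻¹ = mapGL ℝ g) _ _ _)).symm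

theorem hxK3_iotaL_alphaG (ℓ : ℕ) [NeZero ℓ] (x : FL (lvG M 1)) :
    iotaL (lvG M ℓ) (alphaG M ℓ x) = iotaL (lvG M 1) x :=
  iotaL_congr (lvG M ℓ) (lvG M 1) (alphaG M ℓ x) x (IntermediateField.coe_inclusion _ x)

theorem hxK3_merV (d : ℕ) [NeZero d] (x : Mer) :
    merV d x = merGL (PeriodAux.glT d none) (glT_det_pos' d none) x := by
  have : merV d = merGL (PeriodAux.glT d none) (glT_det_pos' d none) := by
    apply mer_hom_ext
    intro f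
    rw [merV_algebraMap, merGL_algebraMap]
    congr 1
    ext τ
    show (f : ℍ → ℂ) (scaleH d τ) = (f : ℍ → ℂ) (PeriodAux.glT d none • τ)
    have h2 : PeriodAux.glT d none • τ = scaleH d τ := heckeDiagMatrix_smul d τ
    rw [h2]
  rw [this]

theorem hxK3_coe_betaG (ℓ : ℕ) [NeZero ℓ] (x : FL (lvG M 1)) :
    ((betaG M ℓ x : FL (lvG M ℓ)) : LaurentSeries Kb) = qExpand Kb ℓ (x : LaurentSeries Kb) := rfl

theorem hxK3_iotaL_betaG (ℓ : ℕ) [NeZero ℓ] (x : FL (lvG M 1)) :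
    iotaL (lvG M ℓ) (betaG M ℓ x) =
      merGL (PeriodAux.glT ℓ none) (glT_det_pos' ℓ none) (iotaL (lvG M 1) x) := by
  rw [← hxK3_merV]
  exact iotaL_qExpand (lvG M 1) (lvG M ℓ) ℓ x (betaG M ℓ x) (hxK3_coe_betaG M ℓ x)

theorem finiteAlong_alphaG {ℓ : ℕ} [NeZero ℓ] (hfin : finrankAlong Kb (alphaG M ℓ) = ℓ + 1) :
    FiniteAlong Kb (alphaG M ℓ) :=
  @Module.finite_of_finrank_pos (FL (lvG M 1)) (FL (lvG M ℓ)) _ _
    (algebraAlong (alphaG M ℓ)).toModule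
    (@Module.Free.of_divisionRing (FL (lvG M 1)) (FL (lvG M ℓ)) _ _
      (algebraAlong (alphaG M ℓ)).toModule) _ (by
        have : 0 < finrankAlong Kb (alphaG M ℓ) := by rw [hfin]; exact Nat.succ_pos _
        exact this)

theorem iotaL_TlG {ℓ : ℕ} [NeZero ℓ] (hℓ : ℓ.Prime) (hM : ¬ ℓ ∣ M)
    (hfin : finrankAlong Kb (alphaG M ℓ) = ℓ + 1) (u : FL (lvG M 1)) :
    iotaL (lvG M 1) (TlG M ℓ u) =
      ∏ i : Option (Fin ℓ), merGL (glK M ℓ i) (glK_det_pos M ℓ i) (iotaL (lvG M 1) u) := by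
  obtain ⟨C⟩ := nonempty_cosetDataG M hℓ hM
  let _ := algebraAlong (alphaG M ℓ)
  have : FiniteDimensional (FL (lvG M 1)) (FL (lvG M ℓ)) := finiteAlong_alphaG M hfin
  let σ : Option (Fin ℓ) → FL (lvG M ℓ) →+* Mer := fun i =>
    (merAct (C.A i)⁻¹).toRingHom.comp (iotaL (lvG M ℓ))
  have hσ : Function.Injective σ := by
    intro i j hij
    apply C.inj
    have h1 : sigmaL (lvG M ℓ) (((C.A i)⁻¹ : SL(2, ℤ)) : QL (lvG M ℓ)) =
        sigmaL (lvG M ℓ) (((C.A j)⁻¹ : SL(2, ℤ)) : QL (lvG M ℓ)) := by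
      ext θ
      rw [sigmaL_mk, sigmaL_mk]
      exact RingHom.congr_fun hij θ
    have h2 := QuotientGroup.eq.mp (sigmaL_injective (lvG M ℓ) h1)
    rwa [inv_inv] at h2
  have hcard : Fintype.card (Option (Fin ℓ)) = Module.finrank (FL (lvG M 1)) (FL (lvG M ℓ)) := by
    rw [Fintype.card_option, Fintype.card_fin]
    exact hfin.symm
  have hα : ∀ i (a : FL (lvG M 1)),
      σ i (algebraMap (FL (lvG M 1)) (FL (lvG M ℓ)) a) = iotaL (lvG M 1) a := by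
    intro i a
    show merAct (C.A i)⁻¹ (iotaL (lvG M ℓ) (alphaG M ℓ a)) = _
    rw [hxK3_iotaL_alphaG, merAct_iotaL_of_mem (lvG M 1) (inv_mem (C.hA i))]
  have h := norm_eq_prod_of_card σ hσ hcard (fun i j a => by rw [hα, hα]) none
    (betaG M ℓ u)
  rw [hα] at h
  refine h.trans (Finset.prod_congr rfl fun i _ => ?_)
  show merAct (C.A i)⁻¹ (iotaL (lvG M ℓ) (betaG M ℓ u)) = _
  have hrel : PeriodAux.glT ℓ none * mapGL ℝ (C.A i) = mapGL ℝ (C.δ i) * glK M ℓ i :=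
    PeriodAux.lift_rel _ _ _ _ (PeriodAux.glT_val hℓ.ne_zero none) (glK_val M hℓ.ne_zero i)
      _ _ (C.rel i)
  have hpos1 : 0 < (PeriodAux.glT ℓ none * mapGL ℝ (C.A i)).det.val := by
    rw [map_mul, Units.val_mul]
    exact mul_pos (glT_det_pos' ℓ none) (det_SL_pos _)
  have hpos2 : 0 < (mapGL ℝ (C.δ i) * glK M ℓ i).det.val := by
    rw [map_mul, Units.val_mul]
    exact mul_pos (det_SL_pos _) (glK_det_pos M ℓ i)
  rw [hxK3_iotaL_betaG, merAct_eq,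
    merGL_congr (by rw [inv_inv] : mapGL ℝ (C.A i)⁻¹⁻¹ = mapGL ℝ (C.A i)) _ (det_SL_pos _),
    ← merGL_mul _ _ _ _ hpos1, merGL_congr hrel hpos1 hpos2, merGL_mul _ _ (det_SL_pos _)
      (glK_det_pos M ℓ i), merGL_SL_iotaL (lvG M 1) (C.hδ i)]

theorem merGL_SL_of_hasCharL {L : Lvl} {m : ℕ} {c : Additive L.Γ →+ ℤ} {h : Mer}
    (hchar : HasCharL L m c h) (δ : L.Γ) :
    merGL (mapGL ℝ (δ : SL(2, ℤ))) (det_SL_pos _) h =
      algebraMap ℂ Mer (zet m (-c (Additive.ofMul δ))) * h := by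
  have h1 := hchar δ⁻¹
  rw [ofMul_inv, map_neg, merAct_eq] at h1
  rw [← h1]
  exact merGL_congr (by rw [Subgroup.coe_inv, inv_inv]) _ _ _

/-- (K3) for `T'_ℓ` -/
theorem isKummerL_TlG_of_finrank {m ℓ : ℕ} [NeZero ℓ] (hℓ : ℓ.Prime) (hM : ¬ ℓ ∣ M)
    (hfin : finrankAlong Kb (alphaG M ℓ) = ℓ + 1)
    {c c' : Additive (lvG M 1).Γ →+ ℤ} {u : FL (lvG M 1)} (hu : IsKummerL (lvG M 1) m c u)
    (hc : IsTransferL (lvG M 1) (matTG M ℓ) c c') : IsKummerL (lvG M 1) m c' (TlG M ℓ u) := by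
  obtain ⟨h, h0, hpow, hchar⟩ := hu
  refine ⟨∏ i : Option (Fin ℓ), merGL (glK M ℓ i) (glK_det_pos M ℓ i) h, ?_, ?_, ?_⟩
  · exact Finset.prod_ne_zero_iff.mpr fun i _ => (map_ne_zero _).mpr h0
  · rw [iotaL_TlG M hℓ hM hfin, hpow, ← Finset.prod_pow]
    exact Finset.prod_congr rfl fun i _ => map_pow _ _ _
  · intro γ
    obtain ⟨D⟩ := nonempty_HDataL_matTG M hℓ hM γ⁻¹
    have hterm : ∀ i, merAct (γ : SL(2, ℤ)) (merGL (glK M ℓ i) (glK_det_pos M ℓ i) h) =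
        algebraMap ℂ Mer (zet m (-c (Additive.ofMul (D.δ i)))) *
          merGL (glK M ℓ (D.σ i)) (glK_det_pos M ℓ _) h := by
      intro i
      have hrel : glK M ℓ i * mapGL ℝ ((γ⁻¹ : (lvG M 1).Γ) : SL(2, ℤ)) =
          mapGL ℝ (D.δ i : SL(2, ℤ)) * glK M ℓ (D.σ i) :=
        PeriodAux.lift_rel _ _ _ _ (glK_val M hℓ.ne_zero i)
          (glK_val M hℓ.ne_zero _) _ _ (D.rel i)
      have hpos1 : 0 < (glK M ℓ i * mapGL ℝ ((γ⁻¹ : (lvG M 1).Γ) : SL(2, ℤ))).det.val := by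
        rw [map_mul, Units.val_mul]
        exact mul_pos (glK_det_pos M ℓ i) (det_SL_pos _)
      have hpos2 : 0 < (mapGL ℝ (D.δ i : SL(2, ℤ)) * glK M ℓ (D.σ i)).det.val := by
        rw [map_mul, Units.val_mul]
        exact mul_pos (det_SL_pos _) (glK_det_pos M ℓ _)
      have hγ : mapGL ℝ (γ : SL(2, ℤ))⁻¹ = mapGL ℝ ((γ⁻¹ : (lvG M 1).Γ) : SL(2, ℤ)) := rfl
      rw [merAct_eq, merGL_congr hγ _ (det_SL_pos _),
        ← merGL_mul _ _ _ _ hpos1, merGL_congr hrel hpos1 hpos2,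
        merGL_mul _ _ (det_SL_pos _) (glK_det_pos M ℓ _), merGL_SL_of_hasCharL hchar, map_mul,
        merGL_const]
    rw [map_prod]
    simp only [hterm]
    rw [Finset.prod_mul_distrib, ← map_prod, ← zet_sum, Finset.sum_neg_distrib, ← hc γ⁻¹ D,
      ofMul_inv, map_neg, neg_neg]
    congr 1
    exact Equiv.prod_comp D.σ
      (fun i => merGL (glK M ℓ i) (glK_det_pos M ℓ i) h)

end Fermat.Agent.S48.M
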