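import Fermat.Agent.S48.M.HX.Rep
import Fermat.Agent.S48.M.HX.Conj

/-!
# S48 / M / HX : the operators `TXp M hℓ hM` (total version `TX M ℓ`), `DX M d` on `X = XL (lvG M 1)`; they commute   (owner helper26)

`Γ = (lvG M 1).Γ = GG M 1` (by `rfl`).

## key S48/HX-O1 : `exists_SL_of_inDel`, `isFam_matTG`   (~100 lines)
* `exists_SL_of_inDel` : `⟨Y, hdet⟩ : SL(2,ℤ)`, `mem_GG_one_iff`.
* `det_ne` : `det_matTG`.   `red` : `matTG_eq_of_smul` with `n = 1` (`one_smul`; `ℓ ∤ 1`).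
* `ex` : `X = matTG i * γ ∈ Δ` (`InDel.mul`, `inDel_matTG`, `mem_GG_one_iff`), `det X = ℓ`; `exists_mul_matTG` gives `X = Y * matTG j`, `ℓ = det Y * ℓ`, `det Y = 1`.
## key S48/HX-O2 : `isFam_matTG_mul`, `exists_swap`, `TXp_commute`   (~200 lines)
* `isFam_matTG_mul` : `IsFam.mul`; `hred` : `B_k A_i = ε B_k' A_i'`; multiply on the left by `adjugate B_k` (`Matrix.adjugate_mul`, `det_matTG`): `ℓ' • A_i = (adj B_k ε B_k') A_i'`, `matTG_eq_of_smul` (`ℓ ∤ ℓ'`: distinct primes), so `i = i'`;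
  `mat_cancel_right`; `B_k = ε B_k'`, `(isFam_matTG ..).red`.
* `exists_swap` : `X = A_i B_k ∈ Δ`, `det X = ℓ ℓ'`.  `exists_mul_matTG` for `ℓ` : `X = Y A_i'`, `det Y = ℓ'`; `exists_mul_matTG` for `ℓ'` : `Y = Y' B_k'`, `det Y' = 1`; `exists_SL_of_inDel`.
* `TXp_commute` : `ℓ = ℓ'` trivial (`subst`, proof irrelevance).  Otherwise `tr_mul_tr` twice, `tr_eq_of_equiv` (`Fintype.card_prod`, `mul_comm`).
## key S48/HX-O3 : `nrm_of_mem_Gamma0`, `conjX_congr`, `isDiaL_DX`, `eq_DX`, `DX_mul`, `DX_one`, `DX_neg_one`   (~200 lines)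
* `nrm_of_mem_Gamma0` : `mem_GG_one_iff`, `inDel_conj` for `g` and `g⁻¹`.
* `conjX_congr` : `g' = (g' g⁻¹) g`, `g' g⁻¹ ∈ GG M 1` (`low_mul`), `conjX_mul`, `conjX_of_mem`.
* `DX_mul` : `gamD d * gamD d'` has lower right entry `d d'` (`low_mul`); `conjX_congr`, `conjX_mul`; the group is commutative so the order does not matter.
* `DX_neg_one` : `gamD (-1) ∈ GG M 1`.
## key S48/HX-O4 : `DX_commute_TXp`   (~100 lines)
  `IsFam.conjX_mul_tr` for `g = gamD M d`; `(hA.conj hg).tr = hA.tr` by `tr_eq_of_equiv` : `g A_i g⁻¹ ∈ Δ` (`inDel_conj`) of determinant `ℓ`, so it is `Y * A_j`, `det Y = 1`.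
-/

set_option autoImplicit false

open CongruenceSubgroup ModularCurve.Period Fermat.Agent.S16.Lower
open scoped MatrixGroups

noncomputable section

namespace Fermat.Agent.S48.M

variable (M : ℕ) [NeZero M]

/-- [S48/HX-O1] -/
theorem exists_SL_of_inDel {Y : M2} (hY : InDel M Y) (hdet : Y.det = 1) :
    ∃ ε : (lvG M 1).Γ, ((ε : SL(2, ℤ)) : M2) = Y :=
  ⟨⟨⟨Y, hdet⟩, (mem_GG_one_iff (M := M) ⟨Y, hdet⟩).2 hY⟩, rfl⟩

/-- [S48/HX-O1] -/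
theorem isFam_matTG {ℓ : ℕ} (hℓ : ℓ.Prime) (hM : ¬ ℓ ∣ M) : IsFam (lvG M 1) (matTG M ℓ) := by
  have hcop : Nat.Coprime ℓ M := (Nat.Prime.coprime_iff_not_dvd hℓ).2 hM
  have hℓ0 : (ℓ : ℤ) ≠ 0 := by exact_mod_cast hℓ.ne_zero
  refine ⟨fun i => by rw [det_matTG]; exact hℓ0, fun ε i j h => ?_, fun γ i => ?_⟩
  · refine matTG_eq_of_smul M hℓ (n := 1) ?_ (Z := ((ε : SL(2, ℤ)) : M2)) (by rw [one_smul]; exact h)
    intro h1
    have := Int.eq_one_of_dvd_one (by positivity) h1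
    exact hℓ.one_lt.ne' (by exact_mod_cast this)
  · have hγ : InDel M ((γ : SL(2, ℤ)) : M2) := (mem_GG_one_iff (M := M) (γ : SL(2, ℤ))).1 γ.2
    have hX : InDel M (matTG M ℓ i * ((γ : SL(2, ℤ)) : M2)) := (inDel_matTG M hcop i).mul hγ
    have hdet : (matTG M ℓ i * ((γ : SL(2, ℤ)) : M2)).det = ℓ := by
      rw [Matrix.det_mul, det_matTG, Matrix.SpecialLinearGroup.det_coe, mul_one]
    obtain ⟨j, Y, hY, hXY⟩ := exists_mul_matTG M hℓ hM hX (by rw [hdet])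
    have hdY : Y.det = 1 := by
      have h1 := hdet
      rw [hXY, Matrix.det_mul, det_matTG] at h1
      exact mul_right_cancel₀ hℓ0 (by rw [h1, one_mul])
    obtain ⟨δ, hδ⟩ := exists_SL_of_inDel M hY hdY
    exact ⟨j, δ, by rw [hδ]; exact hXY⟩

/-- the Hecke operator `T'_ℓ = ⟨ℓ⟩⁻¹ T_ℓ` on the lattice -/
def TXp {ℓ : ℕ} (hℓ : ℓ.Prime) (hM : ¬ ℓ ∣ M) : Module.End ℤ (XL (lvG M 1)) := (isFam_matTG M hℓ hM).tr

theorem isTransferL_TXp {ℓ : ℕ} (hℓ : ℓ.Prime) (hM : ¬ ℓ ∣ M) (c : XL (lvG M 1)) :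
    IsTransferL (lvG M 1) (matTG M ℓ) (c : Additive (lvG M 1).Γ →+ ℤ)
      (TXp M hℓ hM c : Additive (lvG M 1).Γ →+ ℤ) := (isFam_matTG M hℓ hM).isTransfer_tr c

open Classical in
/-- the operator `T'_ℓ` (`0` if `ℓ` is not a prime not dividing `M`) -/
def TX (ℓ : ℕ) : Module.End ℤ (XL (lvG M 1)) :=
  if h : ℓ.Prime ∧ ¬ ℓ ∣ M then TXp M h.1 h.2 else 0

theorem TX_eq {ℓ : ℕ} (hℓ : ℓ.Prime) (hM : ¬ ℓ ∣ M) : TX M ℓ = TXp M hℓ hM := dif_pos ⟨hℓ, hM⟩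

theorem isTransferL_TX {ℓ : ℕ} (hℓ : ℓ.Prime) (hM : ¬ ℓ ∣ M) (c : XL (lvG M 1)) :
    IsTransferL (lvG M 1) (matTG M ℓ) (c : Additive (lvG M 1).Γ →+ ℤ) (TX M ℓ c) := by
  rw [TX_eq M hℓ hM]
  exact isTransferL_TXp M hℓ hM c

theorem nonempty_HDataL_matTG {ℓ : ℕ} (hℓ : ℓ.Prime) (hM : ¬ ℓ ∣ M) (γ : (lvG M 1).Γ) :
    Nonempty (HDataL (lvG M 1) (matTG M ℓ) γ) := (isFam_matTG M hℓ hM).nonempty γ

/-- [S48/HX-O2] -/
theorem isFam_matTG_mul {ℓ ℓ' : ℕ} (hℓ : ℓ.Prime) (hM : ¬ ℓ ∣ M) (hℓ' : ℓ'.Prime) (hM' : ¬ ℓ' ∣ M)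
    (hne : ℓ ≠ ℓ') : IsFam (lvG M 1)
      (fun x : Option (Fin ℓ') × Option (Fin ℓ) => matTG M ℓ' x.1 * matTG M ℓ x.2) := by
  refine IsFam.mul (isFam_matTG M hℓ hM) (isFam_matTG M hℓ' hM') ?_
  rintro ε ⟨k, i⟩ ⟨k', i'⟩ h
  simp only at h
  have hn : ¬ (ℓ : ℤ) ∣ (ℓ' : ℤ) := by
    rw [Int.natCast_dvd_natCast]
    exact fun hd => hne ((Nat.prime_dvd_prime_iff_eq hℓ hℓ').1 hd)
  have h1 : (ℓ' : ℤ) • matTG M ℓ i =
      ((matTG M ℓ' k).adjugate * ((ε : SL(2, ℤ)) : M2) * matTG M ℓ' k') * matTG M ℓ i' := by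
    have h2 : (matTG M ℓ' k).adjugate * (matTG M ℓ' k * matTG M ℓ i) =
        (matTG M ℓ' k).adjugate * (((ε : SL(2, ℤ)) : M2) * (matTG M ℓ' k' * matTG M ℓ i')) := by
      rw [h]
    rw [← Matrix.mul_assoc, Matrix.adjugate_mul, det_matTG, Matrix.smul_mul, Matrix.one_mul] at h2
    rw [h2]
    simp only [Matrix.mul_assoc]
  have hi : i = i' := matTG_eq_of_smul M hℓ hn h1
  subst hi
  have h3 : matTG M ℓ' k = ((ε : SL(2, ℤ)) : M2) * matTG M ℓ' k' := by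
    refine mat_cancel_right ((isFam_matTG M hℓ hM).det_ne i) ?_
    rw [h, Matrix.mul_assoc]
  rw [(isFam_matTG M hℓ' hM').red ε k k' h3]

omit [NeZero M] in
theorem hxO2_coprime {ℓ : ℕ} (hℓ : ℓ.Prime) (hM : ¬ ℓ ∣ M) : Nat.Coprime ℓ M :=
  (Nat.Prime.coprime_iff_not_dvd hℓ).2 hM

/-- an element of `Δ` of determinant `ℓ` is `ε * matTG M ℓ j` -/
theorem hxO2_exists_rep {ℓ : ℕ} (hℓ : ℓ.Prime) (hM : ¬ ℓ ∣ M) {X : M2} (hX : InDel M X)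
    (hdet : X.det = ℓ) :
    ∃ (j : Option (Fin ℓ)) (ε : (lvG M 1).Γ), X = ((ε : SL(2, ℤ)) : M2) * matTG M ℓ j := by
  obtain ⟨j, Y, hY, hXY⟩ := exists_mul_matTG M hℓ hM hX (by rw [hdet])
  have hdY : Y.det = 1 := by
    have h1 : X.det = Y.det * ℓ := by rw [hXY, Matrix.det_mul, det_matTG]
    rw [hdet] at h1
    have hℓ0 : (ℓ : ℤ) ≠ 0 := by exact_mod_cast hℓ.ne_zero
    exact mul_right_cancel₀ hℓ0 (by rw [← h1, one_mul])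
  obtain ⟨ε, hε⟩ := exists_SL_of_inDel M hY hdY
  exact ⟨j, ε, by rw [hε, hXY]⟩

/-- [S48/HX-O2] -/
theorem exists_swap {ℓ ℓ' : ℕ} (hℓ : ℓ.Prime) (hM : ¬ ℓ ∣ M) (hℓ' : ℓ'.Prime) (hM' : ¬ ℓ' ∣ M)
    (x : Option (Fin ℓ) × Option (Fin ℓ')) :
    ∃ (y : Option (Fin ℓ') × Option (Fin ℓ)) (ε : (lvG M 1).Γ),
      matTG M ℓ x.1 * matTG M ℓ' x.2 =
        ((ε : SL(2, ℤ)) : M2) * (matTG M ℓ' y.1 * matTG M ℓ y.2) := by
  have hX : InDel M (matTG M ℓ x.1 * matTG M ℓ' x.2) :=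
    (inDel_matTG M (hxO2_coprime M hℓ hM) x.1).mul (inDel_matTG M (hxO2_coprime M hℓ' hM') x.2)
  have hdX : (matTG M ℓ x.1 * matTG M ℓ' x.2).det = (ℓ : ℤ) * ℓ' := by
    rw [Matrix.det_mul, det_matTG, det_matTG]
  obtain ⟨i, Y, hY, hXY⟩ := exists_mul_matTG M hℓ hM hX (by rw [hdX]; exact dvd_mul_right _ _)
  have hdY : Y.det = ℓ' := by
    have h1 : (ℓ : ℤ) * ℓ' = Y.det * ℓ := by rw [← hdX, hXY, Matrix.det_mul, det_matTG]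
    have hℓ0 : (ℓ : ℤ) ≠ 0 := by exact_mod_cast hℓ.ne_zero
    exact mul_right_cancel₀ hℓ0 (by rw [← h1, mul_comm])
  obtain ⟨k, ε, hk⟩ := hxO2_exists_rep M hℓ' hM' hY hdY
  exact ⟨(k, i), ε, by rw [hXY, hk, Matrix.mul_assoc]⟩

/-- [S48/HX-O2] -/
theorem TXp_commute {ℓ ℓ' : ℕ} (hℓ : ℓ.Prime) (hM : ¬ ℓ ∣ M) (hℓ' : ℓ'.Prime) (hM' : ¬ ℓ' ∣ M) :
    Commute (TXp M hℓ hM) (TXp M hℓ' hM') := by
  by_cases hne : ℓ = ℓ'
  · subst hne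
    exact Commute.refl _
  · show TXp M hℓ hM * TXp M hℓ' hM' = TXp M hℓ' hM' * TXp M hℓ hM
    unfold TXp
    rw [IsFam.tr_mul_tr (isFam_matTG M hℓ hM) (isFam_matTG M hℓ' hM')
        (isFam_matTG_mul M hℓ hM hℓ' hM' hne),
      IsFam.tr_mul_tr (isFam_matTG M hℓ' hM') (isFam_matTG M hℓ hM)
        (isFam_matTG_mul M hℓ' hM' hℓ hM (Ne.symm hne))]
    refine (IsFam.tr_eq_of_equiv _ _ ?_ fun x => exists_swap M hℓ hM hℓ' hM' x).symm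
    rw [Fintype.card_prod, Fintype.card_prod, mul_comm]

theorem TX_commute (ℓ ℓ' : ℕ) : Commute (TX M ℓ) (TX M ℓ') := by
  by_cases h : ℓ.Prime ∧ ¬ ℓ ∣ M
  · by_cases h' : ℓ'.Prime ∧ ¬ ℓ' ∣ M
    · rw [TX_eq M h.1 h.2, TX_eq M h'.1 h'.2]
      exact TXp_commute M h.1 h.2 h'.1 h'.2
    · rw [TX, TX, dif_neg h']
      exact Commute.zero_right _
  · rw [TX, dif_neg h]
    exact Commute.zero_left _

/-! ### diamonds -/

variable {M}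

omit [NeZero M] in
theorem hxO3_dvd {g : SL(2, ℤ)} (hg : g ∈ Gamma0 M) : (M : ℤ) ∣ (g : M2) 1 0 :=
  (ZMod.intCast_zmod_eq_zero_iff_dvd _ M).1 (Gamma0_mem.1 hg)

/-- [S48/HX-O3] -/
theorem nrm_of_mem_Gamma0 {g : SL(2, ℤ)} (hg : g ∈ Gamma0 M) : Nrm (lvG M 1) g := by
  intro γ
  show γ ∈ GG M 1 ↔ g * γ * g⁻¹ ∈ GG M 1
  rw [mem_GG_one_iff, mem_GG_one_iff]
  constructor
  · intro h
    have := inDel_conj hg h
    rwa [← Matrix.SpecialLinearGroup.coe_mul, ← Matrix.SpecialLinearGroup.coe_mul] at this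
  · intro h
    have := inDel_conj ((Gamma0 M).inv_mem hg) h
    rw [← Matrix.SpecialLinearGroup.coe_mul, ← Matrix.SpecialLinearGroup.coe_mul] at this
    have h2 : g⁻¹ * (g * γ * g⁻¹) * g⁻¹⁻¹ = γ := by simp [mul_assoc]
    rwa [h2] at this

theorem hxO3_conjX_eq {L : Lvl} {g g' : SL(2, ℤ)} (h : g = g') (hg : Nrm L g) (hg' : Nrm L g') :
    conjX hg = conjX hg' := by
  subst h; rfl

omit [NeZero M] in
/-- the lower right entry is multiplicative on `Γ₀(M)` -/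
theorem hxO3_low_mul {g : SL(2, ℤ)} (hg : g ∈ Gamma0 M) (g' : SL(2, ℤ)) :
    ((((g * g' : SL(2, ℤ)) 1 1 : ℤ)) : ZMod M) = ((g 1 1 : ℤ) : ZMod M) * ((g' 1 1 : ℤ) : ZMod M) := by
  have := low_mul (hxO3_dvd hg) (g' : M2)
  rwa [← Matrix.SpecialLinearGroup.coe_mul] at this

theorem hxO3_mem_GG {g : SL(2, ℤ)} (hg : g ∈ Gamma0 M)
    (h : ((g 1 1 : ℤ) : ZMod M) = 1 ∨ ((g 1 1 : ℤ) : ZMod M) = -1) : g ∈ (lvG M 1).Γ := by
  show g ∈ GG M 1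
  rw [mem_GG_one_iff]
  exact ⟨hxO3_dvd hg, h⟩

/-- [S48/HX-O3] -/
theorem conjX_congr {g g' : SL(2, ℤ)} (hg : g ∈ Gamma0 M) (hg' : g' ∈ Gamma0 M)
    (h : ((g 1 1 : ℤ) : ZMod M) = ((g' 1 1 : ℤ) : ZMod M)) :
    conjX (nrm_of_mem_Gamma0 hg) = conjX (nrm_of_mem_Gamma0 hg') := by
  have he0 : g' * g⁻¹ ∈ Gamma0 M := (Gamma0 M).mul_mem hg' ((Gamma0 M).inv_mem hg)
  have he : g' * g⁻¹ ∈ (lvG M 1).Γ := by
    refine hxO3_mem_GG he0 (Or.inl ?_)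
    rw [hxO3_low_mul hg', ← h, ← hxO3_low_mul hg, mul_inv_cancel]
    simp
  have hmul : g' * g⁻¹ * g = g' := by simp
  have hn : Nrm (lvG M 1) (g' * g⁻¹ * g) := by rw [hmul]; exact nrm_of_mem_Gamma0 hg'
  rw [← hxO3_conjX_eq hmul hn (nrm_of_mem_Gamma0 hg'),
    conjX_mul (Nrm.of_mem he) (nrm_of_mem_Gamma0 hg) hn, conjX_of_mem _ he, mul_one]

variable (M)

/-- the diamond operator on the lattice : `(DX d c) γ = c (g γ g⁻¹)`, `g ∈ Γ₀(M)` with lower right entry `d` -/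
def DX (d : (ZMod M)ˣ) : Module.End ℤ (XL (lvG M 1)) := conjX (nrm_of_mem_Gamma0 (gamD_mem M d))

/-- [S48/HX-O3] -/
theorem isDiaL_DX (d : (ZMod M)ˣ) (c : XL (lvG M 1)) :
    IsDiaL M d (c : Additive (lvG M 1).Γ →+ ℤ) (DX M d c : Additive (lvG M 1).Γ →+ ℤ) := by
  intro g hg hgd γ γ' hγ'
  have h1 : DX M d = conjX (nrm_of_mem_Gamma0 hg) :=
    conjX_congr (gamD_mem M d) hg (by rw [gamD_apply, hgd])
  rw [h1, conjX_apply]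
  congr 2
  exact Subtype.ext hγ'.symm

/-- [S48/HX-O3] -/
theorem eq_DX (d : (ZMod M)ˣ) {c : XL (lvG M 1)} {c' : Additive (lvG M 1).Γ →+ ℤ}
    (h : IsDiaL M d (c : Additive (lvG M 1).Γ →+ ℤ) c') :
    c' = (DX M d c : Additive (lvG M 1).Γ →+ ℤ) := by
  refine AddMonoidHom.ext fun γ => ?_
  obtain ⟨γ, rfl⟩ := Additive.ofMul.surjective γ
  rw [h (gamD M d) (gamD_mem M d) (gamD_apply M d) γ
    (conjG (nrm_of_mem_Gamma0 (gamD_mem M d)) γ) rfl]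
  exact (conjX_apply _ c γ).symm

/-- [S48/HX-O3] -/
theorem DX_mul (d d' : (ZMod M)ˣ) : DX M (d * d') = DX M d * DX M d' := by
  have hm : gamD M d' * gamD M d ∈ Gamma0 M := (Gamma0 M).mul_mem (gamD_mem M d') (gamD_mem M d)
  have h1 : DX M (d * d') = conjX (nrm_of_mem_Gamma0 hm) := by
    refine conjX_congr (gamD_mem M (d * d')) hm ?_
    rw [gamD_apply, hxO3_low_mul (gamD_mem M d'), gamD_apply, gamD_apply, Units.val_mul, mul_comm]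
  rw [h1]
  exact conjX_mul _ _ _

/-- [S48/HX-O3] -/
theorem DX_one : DX M 1 = 1 :=
  conjX_of_mem _ (hxO3_mem_GG (gamD_mem M 1) (Or.inl (by rw [gamD_apply, Units.val_one])))

/-- [S48/HX-O3] -/
theorem DX_neg_one : DX M (-1) = 1 :=
  conjX_of_mem _ (hxO3_mem_GG (gamD_mem M (-1))
    (Or.inr (by rw [gamD_apply, Units.val_neg, Units.val_one])))

theorem DX_commute (d d' : (ZMod M)ˣ) : Commute (DX M d) (DX M d') := by
  show DX M d * DX M d' = DX M d' * DX M d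
  rw [← DX_mul, ← DX_mul, mul_comm]

/-- [S48/HX-O4] -/
theorem DX_commute_TXp (d : (ZMod M)ˣ) {ℓ : ℕ} (hℓ : ℓ.Prime) (hM : ¬ ℓ ∣ M) :
    Commute (DX M d) (TXp M hℓ hM) := by
  have hA := isFam_matTG M hℓ hM
  have hg := nrm_of_mem_Gamma0 (gamD_mem M d)
  have h1 : (hA.conj hg).tr = hA.tr := by
    refine IsFam.tr_eq_of_equiv hA (hA.conj hg) rfl fun i => ?_
    refine hxO2_exists_rep M hℓ hM
      (inDel_conj (gamD_mem M d) (inDel_matTG M (hxO2_coprime M hℓ hM) i)) ?_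
    rw [Matrix.det_mul, Matrix.det_mul, Matrix.SpecialLinearGroup.det_coe,
      Matrix.SpecialLinearGroup.det_coe, one_mul, mul_one, det_matTG]
  have h2 := hA.conjX_mul_tr hg
  rw [h1] at h2
  exact h2

theorem DX_TX_comm (d : (ZMod M)ˣ) (ℓ : ℕ) : DX M d * TX M ℓ = TX M ℓ * DX M d := by
  by_cases h : ℓ.Prime ∧ ¬ ℓ ∣ M
  · rw [TX_eq M h.1 h.2]
    exact DX_commute_TXp M d h.1 h.2
  · rw [TX, dif_neg h, mul_zero, zero_mul]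

end Fermat.Agent.S48.M
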