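import Fermat.Agent.S48.M.IfAlg
import Fermat.Agent.S48.M.HX.Ops

/-!
# S48 / layer M / HX : (K3) for the diamond operators   (helper8)
`ι (diaG d u) = merAct g⁻¹ (ι u)`, `g = gamD M d`; if `ι u = h ^ m` then `h' = merAct g⁻¹ h` works:
`merAct γ h' = merAct g⁻¹ (merAct (g γ g⁻¹) h)`.
-/

set_option autoImplicit false

open UpperHalfPlane ModularForm ModularFormClass WithZero ModularCurve AlgebraicCurve CongruenceSubgroup
open ModularCurve.Period Fermat.Agent.S24 Fermat.Agent.S29 Fermat.Agent.S16.Lower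
open scoped MatrixGroups Manifold

noncomputable section

namespace Fermat.Agent.S48.M

variable (M : ℕ) [NeZero M]

/-- (K3) for the diamonds -/
theorem isKummerL_diaG' (m : ℕ) (d : (ZMod M)ˣ)
    (c c' : Additive (lvG M 1).Γ →+ ℤ) (u : FL (lvG M 1))
    (hu : IsKummerL (lvG M 1) m c u) (ht : IsDiaL M d c c') :
    IsKummerL (lvG M 1) m c' (diaG M d u) := by
  obtain ⟨h, h0, hpow, hchar⟩ := hu
  set g := gamD M d with hg
  refine ⟨merAct g⁻¹ h, ?_, ?_, ?_⟩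
  · exact fun h1 => h0 ((map_eq_zero_iff _ (merAct g⁻¹).injective).mp h1)
  · rw [iotaL_diaG, hpow, map_pow]
  · intro γ
    have hmem : g * (γ : SL(2, ℤ)) * g⁻¹ ∈ (lvG M 1).Γ :=
      (nrm_of_mem_Gamma0 (gamD_mem M d) (γ : SL(2, ℤ))).mp γ.2
    have h1 := ht g (gamD_mem M d) (gamD_apply M d) γ ⟨_, hmem⟩ rfl
    have h2 := hchar ⟨_, hmem⟩
    rw [h1, ← merAct_mul]
    have h3 : (γ : SL(2, ℤ)) * g⁻¹ = g⁻¹ * (g * (γ : SL(2, ℤ)) * g⁻¹) := by group
    rw [h3, merAct_mul, h2, map_mul, merAct_const]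

end Fermat.Agent.S48.M
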