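import Fermat.Agent.S48.M.IfAlg
import Fermat.Agent.S48.M.HX.Ops
import Fermat.Agent.S48.M.Per.Hecke
import Fermat.Agent.S29.K3

/-!
# S48 / layer M / HX : (K3) for `T'_ℓ`   (helper8; port of S29/K3)
-/

set_option autoImplicit false

open UpperHalfPlane ModularForm ModularFormClass WithZero ModularCurve AlgebraicCurve CongruenceSubgroup
open ModularCurve.Period Fermat.Agent.S24 Fermat.Agent.S29 Fermat.Agent.S16.Lower
open Fermat.Agent.S29.K3 Fermat.Agent.S48.M.Per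
open Matrix.SpecialLinearGroup (mapGL)
open scoped MatrixGroups Manifold

noncomputable section

namespace Fermat.Agent.S48.M

namespace K3Tl

variable (M : ℕ) [NeZero M]

theorem glTG_det_pos' (ℓ : ℕ) (i : Option (Fin ℓ)) : 0 < (glTG M ℓ i).det.val := by
  have := glTG_det_pos M ℓ i
  rwa [← Matrix.GeneralLinearGroup.val_det_apply] at this

/-- the explicit coset data -/
structure CosetDataG (ℓ : ℕ) where
  A : Option (Fin ℓ) → SL(2, ℤ)
  δ : Option (Fin ℓ) → SL(2, ℤ)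
  hA : ∀ i, A i ∈ GG M 1
  hδ : ∀ i, δ i ∈ GG M 1
  rel : ∀ i, matD ℓ * (A i : Matrix (Fin 2) (Fin 2) ℤ) =
    (δ i : Matrix (Fin 2) (Fin 2) ℤ) * matTG M ℓ i
  inj : ∀ i j, A i * (A j)⁻¹ ∈ GG M ℓ → i = j

theorem nonempty_cosetDataG {ℓ : ℕ} (hℓ : ℓ.Prime) (hM : ¬ ℓ ∣ M) :
    Nonempty (CosetDataG M ℓ) := by
  have : NeZero ℓ := ⟨hℓ.ne_zero⟩
  have hcop : Nat.Coprime ℓ M := (Nat.Prime.coprime_iff_not_dvd hℓ).mpr hM
  obtain ⟨W⟩ := nonempty_WData hcop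
  set s : ℤ := W.d with hs
  set t : ℤ := W.k with ht
  have hst : (ℓ : ℤ) * s - M * t = 1 := W.det
  set G := gamD M (unitOf M ℓ)⁻¹ with hG
  have hmem : G * W.gam1⁻¹ ∈ GG M 1 :=
    W.mul_gam1_inv_mem (gamD_mem M _) (by rw [gamD_apply]; exact unitOf_inv_mul hcop)
  let Ak : Fin ℓ → SL(2, ℤ) := fun k =>
    ⟨!![1, (k : ℕ) + t; (M : ℤ), M * (k : ℕ) + ℓ * s], by
      rw [Matrix.det_fin_two_of]; linarith⟩
  have hNℓ : ∀ z : ℤ, ((M * ℓ : ℕ) : ℤ) ∣ M * z → (ℓ : ℤ) ∣ z := by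
    intro z hz
    have hN0 : (M : ℤ) ≠ 0 := by exact_mod_cast NeZero.ne M
    rw [Nat.cast_mul] at hz
    exact (mul_dvd_mul_iff_left hN0).mp hz
  have hℓ1 : ¬ (ℓ : ℤ) ∣ 1 := by
    intro h
    have := Int.natCast_dvd_natCast.mp (by simpa using h : (ℓ : ℤ) ∣ ((1 : ℕ) : ℤ))
    exact hℓ.one_lt.ne' (Nat.dvd_one.mp this)
  refine ⟨{ A := fun i => i.elim 1 Ak
            δ := fun i => i.elim 1 (fun _ => W.gam1 * G⁻¹)
            hA := ?_, hδ := ?_, rel := ?_, inj := ?_ }⟩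
  · rintro (_ | k)
    · exact one_mem _
    · rw [mem_GG, Gamma0_mem, mul_one]
      refine ⟨by simp [Ak], Or.inl ?_⟩
      have h1 : (Ak k) 1 1 = M * (k : ℕ) + ℓ * s := rfl
      have h2 : (M : ℤ) * (k : ℕ) + ℓ * s = 1 + M * ((k : ℕ) + t) := by linarith
      show (((Ak k) 1 1 : ℤ) : ZMod M) = 1
      rw [h1, h2]
      push_cast
      simp
  · rintro (_ | k)
    · exact one_mem _
    · have := inv_mem hmem
      rwa [mul_inv_rev, inv_inv] at this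
  · rintro (_ | k)
    · simp [matTG]
    · show matD ℓ * !![1, (k : ℕ) + t; (M : ℤ), M * (k : ℕ) + ℓ * s] =
        ((W.gam1 * G⁻¹ : SL(2, ℤ)) : Matrix (Fin 2) (Fin 2) ℤ) *
          ((G : Matrix (Fin 2) (Fin 2) ℤ) * matU ℓ k)
      rw [← Matrix.mul_assoc, ← Matrix.SpecialLinearGroup.coe_mul, inv_mul_cancel_right]
      show matD ℓ * !![1, (k : ℕ) + t; (M : ℤ), M * (k : ℕ) + ℓ * s] =
        !![(ℓ : ℤ), t; (M : ℤ), s] * matU ℓ k
      rw [matD, matU]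
      ext i j
      fin_cases i <;> fin_cases j <;> simp [Matrix.mul_apply, Fin.sum_univ_two]
      all_goals ring
  · intro i j hij
    have hij := hij.1
    rw [Gamma0_mem, mul_inv_one_zero, ZMod.intCast_zmod_eq_zero_iff_dvd] at hij
    rcases i with _ | k <;> rcases j with _ | k'
    · rfl
    · exfalso
      have h1 : ((M * ℓ : ℕ) : ℤ) ∣ M * (-1) := by simpa [Ak] using hij
      exact hℓ1 ((dvd_neg).mp (hNℓ _ h1))
    · exfalso
      have h1 : ((M * ℓ : ℕ) : ℤ) ∣ M * 1 := by simpa [Ak] using hij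
      exact hℓ1 (hNℓ _ h1)
    · have h1 : ((M * ℓ : ℕ) : ℤ) ∣ M * (M * ((k' : ℕ) - (k : ℕ) : ℤ)) := by
        have : (M : ℤ) * (M * ((k' : ℕ) - (k : ℕ) : ℤ)) =
            (M : ℤ) * (M * (k' : ℕ) + ℓ * s) - (M * (k : ℕ) + ℓ * s) * M := by ring
        rw [this]
        simpa [Ak] using hij
      have h2 := hNℓ _ h1
      have h3 : (ℓ : ℤ) ∣ ((k' : ℕ) - (k : ℕ) : ℤ) :=
        (IsCoprime.dvd_of_dvd_mul_left (Nat.isCoprime_iff_coprime.mpr hcop) h2)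
      have h4 : ((k' : ℕ) : ℤ) - (k : ℕ) = 0 := by
        apply Int.eq_zero_of_abs_lt_dvd h3
        have hk := k.2
        have hk' := k'.2
        rw [abs_lt]
        constructor <;> omega
      congr 1
      apply Fin.ext
      omega

variable (ℓ : ℕ) [NeZero ℓ]

theorem iotaL_alphaG (x : FL (lvG M 1)) :
    iotaL (lvG M ℓ) (alphaG M ℓ x) = iotaL (lvG M 1) x :=
  iotaL_congr _ _ _ _ (coe_alphaG M ℓ x)

theorem merV_eq (x : Mer) : merV ℓ x = merGL (glTG M ℓ none) (glTG_det_pos' M ℓ none) x := by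
  have : merV ℓ = merGL (glTG M ℓ none) (glTG_det_pos' M ℓ none) := by
    apply mer_hom_ext
    intro f
    rw [merV_algebraMap, merGL_algebraMap]
    congr 1
    ext τ
    show (f : ℍ → ℂ) (scaleH ℓ τ) = (f : ℍ → ℂ) (glTG M ℓ none • τ)
    exact congrArg (f : ℍ → ℂ) (heckeDiagMatrix_smul ℓ τ).symm
  exact RingHom.congr_fun this x

theorem iotaL_betaG (x : FL (lvG M 1)) :
    iotaL (lvG M ℓ) (betaG M ℓ x) =
      merGL (glTG M ℓ none) (glTG_det_pos' M ℓ none) (iotaL (lvG M 1) x) := by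
  rw [← merV_eq]
  exact iotaL_qExpand _ _ ℓ x _ (coe_betaG M ℓ x)

variable {M ℓ}

theorem merGL_SL_iotaL (L : Lvl) {g : SL(2, ℤ)} (hg : g ∈ L.Γ) (θ : FL L) :
    merGL (mapGL ℝ g) (det_SL_pos g) (iotaL L θ) = iotaL L θ := by
  have h := merAct_eq g⁻¹ (iotaL L θ)
  rw [merAct_iotaL_of_mem L (inv_mem hg)] at h
  exact (h.trans (merGL_congr (by rw [inv_inv] : mapGL ℝ g⁻¹⁻¹ = mapGL ℝ g) _ _ _)).symm

theorem iotaL_TlG (hℓ : ℓ.Prime) (hM : ¬ ℓ ∣ M) (u : FL (lvG M 1)) :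
    iotaL (lvG M 1) (TlG M ℓ u) =
      ∏ i : Option (Fin ℓ), merGL (glTG M ℓ i) (glTG_det_pos' M ℓ i) (iotaL (lvG M 1) u) := by
  obtain ⟨C⟩ := nonempty_cosetDataG M hℓ hM
  let _ := algebraAlong (alphaG M ℓ)
  have : FiniteDimensional (FL (lvG M 1)) (FL (lvG M ℓ)) := finite_alphaG M ℓ
  let σ : Option (Fin ℓ) → FL (lvG M ℓ) →+* Mer := fun i =>
    (merAct (C.A i)⁻¹).toRingHom.comp (iotaL (lvG M ℓ))
  have hσ : Function.Injective σ := by
    intro i j hij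
    apply C.inj
    have h1 : sigmaL (lvG M ℓ) (((C.A i)⁻¹ : SL(2, ℤ)) : QL (lvG M ℓ)) =
        sigmaL (lvG M ℓ) (((C.A j)⁻¹ : SL(2, ℤ)) : QL (lvG M ℓ)) := by
      ext θ
      rw [sigmaL_mk, sigmaL_mk]
      exact RingHom.congr_fun hij θ
    have h2 := QuotientGroup.eq.mp (sigmaL_injective (lvG M ℓ) h1)
    rwa [inv_inv] at h2
  have hcard : Fintype.card (Option (Fin ℓ)) = Module.finrank (FL (lvG M 1)) (FL (lvG M ℓ)) := by
    rw [Fintype.card_option, Fintype.card_fin]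
    exact (finrankAlong_alphaG M ℓ hℓ hM).symm
  have hα : ∀ i (a : FL (lvG M 1)),
      σ i (algebraMap (FL (lvG M 1)) (FL (lvG M ℓ)) a) = iotaL (lvG M 1) a := by
    intro i a
    show merAct (C.A i)⁻¹ (iotaL (lvG M ℓ) (alphaG M ℓ a)) = _
    rw [iotaL_alphaG, merAct_iotaL_of_mem (lvG M 1) (inv_mem (C.hA i))]
  have h := norm_eq_prod_of_card σ hσ hcard (fun i j a => by rw [hα, hα]) none
    (betaG M ℓ u)
  rw [hα] at h
  rw [TlG_apply]
  refine h.trans (Finset.prod_congr rfl fun i _ => ?_)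
  show merAct (C.A i)⁻¹ (iotaL (lvG M ℓ) (betaG M ℓ u)) = _
  have hrel : glTG M ℓ none * mapGL ℝ (C.A i) = mapGL ℝ (C.δ i) * glTG M ℓ i :=
    PeriodAux.lift_rel _ _ _ _ (glTG_val M hℓ.ne_zero none) (glTG_val M hℓ.ne_zero i)
      _ _ (C.rel i)
  have hpos1 : 0 < (glTG M ℓ none * mapGL ℝ (C.A i)).det.val := by
    rw [map_mul, Units.val_mul]
    exact mul_pos (glTG_det_pos' M ℓ none) (det_SL_pos _)
  have hpos2 : 0 < (mapGL ℝ (C.δ i) * glTG M ℓ i).det.val := by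
    rw [map_mul, Units.val_mul]
    exact mul_pos (det_SL_pos _) (glTG_det_pos' M ℓ i)
  rw [iotaL_betaG, merAct_eq,
    merGL_congr (by rw [inv_inv] : mapGL ℝ (C.A i)⁻¹⁻¹ = mapGL ℝ (C.A i)) _ (det_SL_pos _),
    ← merGL_mul _ _ _ _ hpos1, merGL_congr hrel hpos1 hpos2, merGL_mul _ _ (det_SL_pos _)
      (glTG_det_pos' M ℓ i), merGL_SL_iotaL (lvG M 1) (C.hδ i)]

theorem merGL_SL_of_hasCharL {L : Lvl} {m : ℕ} {c : Additive L.Γ →+ ℤ} {h : Mer}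
    (hchar : HasCharL L m c h) (δ : L.Γ) :
    merGL (mapGL ℝ (δ : SL(2, ℤ))) (det_SL_pos _) h =
      algebraMap ℂ Mer (zet m (-c (Additive.ofMul δ))) * h := by
  have h1 := hchar δ⁻¹
  rw [ofMul_inv, map_neg, merAct_eq] at h1
  rw [← h1]
  exact merGL_congr (by rw [Subgroup.coe_inv, inv_inv]) _ _ _

/-- **(K3) for `T'_ℓ`** -/
theorem isKummerL_TlG' {m : ℕ} (hℓ : ℓ.Prime) (hM : ¬ ℓ ∣ M)
    {c c' : Additive (lvG M 1).Γ →+ ℤ} {u : FL (lvG M 1)} (hu : IsKummerL (lvG M 1) m c u)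
    (hc : IsTransferL (lvG M 1) (matTG M ℓ) c c') : IsKummerL (lvG M 1) m c' (TlG M ℓ u) := by
  obtain ⟨h, h0, hpow, hchar⟩ := hu
  refine ⟨∏ i : Option (Fin ℓ), merGL (glTG M ℓ i) (glTG_det_pos' M ℓ i) h, ?_, ?_, ?_⟩
  · exact Finset.prod_ne_zero_iff.mpr fun i _ => (map_ne_zero _).mpr h0
  · rw [iotaL_TlG hℓ hM, hpow, ← Finset.prod_pow]
    exact Finset.prod_congr rfl fun i _ => map_pow _ _ _
  · intro γ
    obtain ⟨D⟩ := nonempty_HDataL_matTG M hℓ hM γ⁻¹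
    have hterm : ∀ i, merAct (γ : SL(2, ℤ)) (merGL (glTG M ℓ i) (glTG_det_pos' M ℓ i) h) =
        algebraMap ℂ Mer (zet m (-c (Additive.ofMul (D.δ i)))) *
          merGL (glTG M ℓ (D.σ i)) (glTG_det_pos' M ℓ _) h := by
      intro i
      have hrel : glTG M ℓ i * mapGL ℝ ((γ⁻¹ : (lvG M 1).Γ) : SL(2, ℤ)) =
          mapGL ℝ (D.δ i : SL(2, ℤ)) * glTG M ℓ (D.σ i) :=
        PeriodAux.lift_rel _ _ _ _ (glTG_val M hℓ.ne_zero i)
          (glTG_val M hℓ.ne_zero _) _ _ (D.rel i)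
      have hpos1 : 0 < (glTG M ℓ i * mapGL ℝ ((γ⁻¹ : (lvG M 1).Γ) : SL(2, ℤ))).det.val := by
        rw [map_mul, Units.val_mul]
        exact mul_pos (glTG_det_pos' M ℓ i) (det_SL_pos _)
      have hpos2 : 0 < (mapGL ℝ (D.δ i : SL(2, ℤ)) * glTG M ℓ (D.σ i)).det.val := by
        rw [map_mul, Units.val_mul]
        exact mul_pos (det_SL_pos _) (glTG_det_pos' M ℓ _)
      have hγ : mapGL ℝ (γ : SL(2, ℤ))⁻¹ = mapGL ℝ ((γ⁻¹ : (lvG M 1).Γ) : SL(2, ℤ)) := rfl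
      rw [merAct_eq, merGL_congr hγ _ (det_SL_pos _),
        ← merGL_mul _ _ _ _ hpos1, merGL_congr hrel hpos1 hpos2,
        merGL_mul _ _ (det_SL_pos _) (glTG_det_pos' M ℓ _), merGL_SL_of_hasCharL hchar, map_mul,
        merGL_const]
    rw [map_prod]
    simp only [hterm]
    rw [Finset.prod_mul_distrib, ← map_prod, ← zet_sum, Finset.sum_neg_distrib, ← hc γ⁻¹ D,
      ofMul_inv, map_neg, neg_neg]
    congr 1
    exact Equiv.prod_comp D.σ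
      (fun i => merGL (glTG M ℓ i) (glTG_det_pos' M ℓ i) h)

end K3Tl

end Fermat.Agent.S48.M
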