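import Fermat.Agent.S48.M.HX.Transfer
import Fermat.Agent.S16.LDataExist

/-!
# S48 / M / HX : arithmetic of the representatives `matT ℓ`, `matTG M ℓ`, the semigroup `Δ`   (owner helper26)

`InDel M X` : `M ∣ X 1 0` and `X 1 1 ≡ ±1 (M)`  (the semigroup `Δ ⊇ GG M 1`).

## key S48/HX-R1 : `det_matT`, `exists_mul_matT`, `matT_eq_of_smul`   (~150 lines; Mathlib + `S16/LDefs` only; entries)
* `exists_mul_matT` : `X = !![a, b; c, d]` (`Matrix.eta_fin_two`), `ℓ ∣ a d - b c`.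
  If `ℓ ∣ a`, `ℓ ∣ c` : `i = none`, `Y = !![a/ℓ, b; c/ℓ, d]`.  If `ℓ ∤ a` : `j` with `ℓ ∣ b - j a` (`S16.Lower.LDataAux.exists_fin_congr`, or `ZMod ℓ` field), then `ℓ ∣ a (d - j c) = (a d - b c) + c (b - j a)`, so
  `ℓ ∣ d - j c`; `Y = !![a, (b - j a)/ℓ; c, (d - j c)/ℓ]`.  If `ℓ ∣ a`, `ℓ ∤ c` : `j` with `ℓ ∣ d - j c`; `ℓ ∣ c (b - j a)`.
* `matT_eq_of_smul` : entries.  (none, some) : `Z 1 0 = 0`, `n = Z 1 0 * j + Z 1 1 * ℓ`.  (some, none) : `n = Z 0 0 * ℓ`.  (some j₁, some j₂) : `Z 0 0 = n`, `n j₁ = n j₂ + Z 0 1 ℓ`, `ℓ ∣ j₁ - j₂`, `|j₁ - j₂| < ℓ`.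
## key S48/HX-R2 : `low_mul`, `dvd_mul`, `InDel.mul`, `InDel.of_mul`, `mem_GG_one_iff`, `inDel_conj`   (~150 lines)
* `(X Y) 1 0 = X 1 0 * Y 0 0 + X 1 1 * Y 1 0`, `(X Y) 1 1 = X 1 0 * Y 0 1 + X 1 1 * Y 1 1` (`Matrix.mul_apply`, `Fin.sum_univ_two`); in `ZMod M` use `(ZMod.intCast_zmod_eq_zero_iff_dvd _ M)`.
* `of_mul` : `M ∣ Y 1 0 * X 0 0`; `det X ≡ X 0 0 * X 1 1`, so `X 0 0` is prime to `M` (`IsCoprime.of_mul_left_left` after `IsCoprime.of_add_mul_...`), `IsCoprime.dvd_of_dvd_mul_right`.  `Y 1 1 * X 1 1 = ±1`, `X 1 1 = ±1`.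
* `mem_GG_one_iff` : `mem_GG`, `mul_one`, `Gamma0_mem`.
* `inDel_conj` : `low_mul` twice; `g 1 1 * g⁻¹ 1 1 ≡ (g g⁻¹) 1 1 = 1`.
## key S48/HX-R3 : `det_matTG`, `inDel_matTG`, `exists_mul_matTG`, `matTG_eq_of_smul`   (~150 lines)
  `matTG M ℓ i = h_i * matT ℓ i`, `h_none = 1`, `h_(some j) = gamD M (unitOf M ℓ)⁻¹` (state this as `matTG_eq`).  `(matTG i) 1 1 ≡ 1` : `low_mul`, `gamD_apply`, `unitOf` (`dif_pos`), `ZMod.coe_unitOfCoprime`, `Units.inv_mul`.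
* `exists_mul_matTG` : `X = Y₀ * matT i = (Y₀ h_i⁻¹) * matTG i`; `InDel.of_mul` (`det (matTG i) = ℓ` prime to `M`).
* `matTG_eq_of_smul` : `n • matT i = (h_i⁻¹ Z h_j) * matT j`.
-/

set_option autoImplicit false

open CongruenceSubgroup Fermat.Agent.S16.Lower
open scoped MatrixGroups

noncomputable section

namespace Fermat.Agent.S48.M

/-! ### R1 -/

/-- [S48/HX-R1] -/
theorem det_matT (ℓ : ℕ) (i : Option (Fin ℓ)) : (matT ℓ i).det = ℓ := by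
  cases i with
  | none => simp [matT, matD, Matrix.det_fin_two_of]
  | some j => simp [matT, matU, Matrix.det_fin_two_of]

theorem hxR1_mul_matU (ℓ j : ℕ) (Y : M2) :
    Y * matU ℓ j = !![Y 0 0, Y 0 0 * j + Y 0 1 * ℓ; Y 1 0, Y 1 0 * j + Y 1 1 * ℓ] := by
  ext a b
  fin_cases a <;> fin_cases b <;> simp [Matrix.mul_apply, Fin.sum_univ_two, matU]

theorem hxR1_mul_matD (ℓ : ℕ) (Y : M2) :
    Y * matD ℓ = !![Y 0 0 * ℓ, Y 0 1; Y 1 0 * ℓ, Y 1 1] := by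
  ext a b
  fin_cases a <;> fin_cases b <;> simp [Matrix.mul_apply, Fin.sum_univ_two, matD]

/-- [S48/HX-R1] right division by a representative -/
theorem exists_mul_matT {ℓ : ℕ} (hℓ : ℓ.Prime) (X : M2) (hX : (ℓ : ℤ) ∣ X.det) :
    ∃ (i : Option (Fin ℓ)) (Y : M2), X = Y * matT ℓ i := by
  have hp : Prime (ℓ : ℤ) := Nat.prime_iff_prime_int.mp hℓ
  rw [Matrix.det_fin_two] at hX
  by_cases hac : (ℓ : ℤ) ∣ X 0 0 ∧ (ℓ : ℤ) ∣ X 1 0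
  · obtain ⟨⟨a', ha⟩, ⟨c', hc⟩⟩ := hac
    refine ⟨none, !![a', X 0 1; c', X 1 1], ?_⟩
    show X = _ * matD ℓ
    rw [hxR1_mul_matD]
    conv_lhs => rw [Matrix.eta_fin_two X, ha, hc]
    simp [mul_comm]
  · have hj : ∃ j : Fin ℓ, (ℓ : ℤ) ∣ X 0 1 - (j : ℕ) * X 0 0 ∧ (ℓ : ℤ) ∣ X 1 1 - (j : ℕ) * X 1 0 := by
      by_cases ha : (ℓ : ℤ) ∣ X 0 0
      · have hc : ¬ (ℓ : ℤ) ∣ X 1 0 := fun h => hac ⟨ha, h⟩
        obtain ⟨j, hj⟩ := LDataAux.exists_fin_congr hℓ (X 1 0) (X 1 1) hc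
        refine ⟨j, ?_, hj⟩
        have h1 : (ℓ : ℤ) ∣ X 1 0 * (X 0 1 - (j : ℕ) * X 0 0) := by
          have : X 1 0 * (X 0 1 - (j : ℕ) * X 0 0)
              = X 0 0 * (X 1 1 - (j : ℕ) * X 1 0) - (X 0 0 * X 1 1 - X 0 1 * X 1 0) := by ring
          rw [this]
          exact dvd_sub (Dvd.dvd.mul_left hj _) hX
        exact (hp.dvd_or_dvd h1).resolve_left hc
      · obtain ⟨j, hj⟩ := LDataAux.exists_fin_congr hℓ (X 0 0) (X 0 1) ha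
        refine ⟨j, hj, ?_⟩
        have h1 : (ℓ : ℤ) ∣ X 0 0 * (X 1 1 - (j : ℕ) * X 1 0) := by
          have : X 0 0 * (X 1 1 - (j : ℕ) * X 1 0)
              = (X 0 0 * X 1 1 - X 0 1 * X 1 0) + X 1 0 * (X 0 1 - (j : ℕ) * X 0 0) := by ring
          rw [this]
          exact dvd_add hX (Dvd.dvd.mul_left hj _)
        exact (hp.dvd_or_dvd h1).resolve_left ha
    obtain ⟨j, ⟨β, hβ⟩, ⟨δ, hδ⟩⟩ := hj
    refine ⟨some j, !![X 0 0, β; X 1 0, δ], ?_⟩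
    show X = _ * matU ℓ j
    rw [hxR1_mul_matU]
    have h01 : X 0 1 = X 0 0 * (j : ℕ) + β * ℓ := by linear_combination hβ
    have h11 : X 1 1 = X 1 0 * (j : ℕ) + δ * ℓ := by linear_combination hδ
    conv_lhs => rw [Matrix.eta_fin_two X, h01, h11]
    simp

/-- [S48/HX-R1] -/
theorem matT_eq_of_smul {ℓ : ℕ} (hℓ : ℓ.Prime) {n : ℤ} (hn : ¬ (ℓ : ℤ) ∣ n) {Z : M2}
    {i j : Option (Fin ℓ)} (h : n • matT ℓ i = Z * matT ℓ j) : i = j := by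
  have hp : Prime (ℓ : ℤ) := Nat.prime_iff_prime_int.mp hℓ
  cases i with
  | none =>
    cases j with
    | none => rfl
    | some j =>
      exfalso
      change n • matD ℓ = Z * matU ℓ j at h
      rw [hxR1_mul_matU] at h
      have h10 := congrFun (congrFun h 1) 0
      have h11 := congrFun (congrFun h 1) 1
      simp [matD] at h10 h11
      rw [← h10] at h11
      exact hn ⟨Z 1 1, by rw [h11]; ring⟩
  | some i =>
    cases j with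
    | none =>
      exfalso
      change n • matU ℓ i = Z * matD ℓ at h
      rw [hxR1_mul_matD] at h
      have h00 := congrFun (congrFun h 0) 0
      simp [matU] at h00
      exact hn ⟨Z 0 0, by rw [h00]; ring⟩
    | some j =>
      change n • matU ℓ i = Z * matU ℓ j at h
      rw [hxR1_mul_matU] at h
      have h00 := congrFun (congrFun h 0) 0
      have h01 := congrFun (congrFun h 0) 1
      simp [matU] at h00 h01
      rw [← h00] at h01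
      have h1 : (ℓ : ℤ) ∣ n * (((i : ℕ) : ℤ) - ((j : ℕ) : ℤ)) :=
        ⟨Z 0 1, by linear_combination h01⟩
      have h2 := (hp.dvd_or_dvd h1).resolve_left hn
      have hi := i.2
      have hj := j.2
      have h3 : ((i : ℕ) : ℤ) - ((j : ℕ) : ℤ) = 0 := by
        apply Int.eq_zero_of_abs_lt_dvd h2
        rw [abs_lt]
        constructor <;> omega
      congr 1
      apply Fin.ext
      omega

/-! ### R2 -/

/-- the semigroup `Δ` -/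
def InDel (M : ℕ) (X : M2) : Prop :=
  (M : ℤ) ∣ X 1 0 ∧ (((X 1 1 : ℤ) : ZMod M) = 1 ∨ ((X 1 1 : ℤ) : ZMod M) = -1)

variable {M : ℕ}

/-- [S48/HX-R2] -/
theorem dvd_mul_low {X Y : M2} (hX : (M : ℤ) ∣ X 1 0) (hY : (M : ℤ) ∣ Y 1 0) :
    (M : ℤ) ∣ (X * Y) 1 0 := by
  rw [Matrix.mul_apply, Fin.sum_univ_two]
  exact dvd_add (Dvd.dvd.mul_right hX _) (Dvd.dvd.mul_left hY _)

/-- [S48/HX-R2] -/
theorem low_mul {X : M2} (hX : (M : ℤ) ∣ X 1 0) (Y : M2) :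
    (((X * Y) 1 1 : ℤ) : ZMod M) = ((X 1 1 : ℤ) : ZMod M) * ((Y 1 1 : ℤ) : ZMod M) := by
  rw [Matrix.mul_apply, Fin.sum_univ_two, Int.cast_add, Int.cast_mul, Int.cast_mul,
    (ZMod.intCast_zmod_eq_zero_iff_dvd _ M).2 hX, zero_mul, zero_add]

theorem hxR2_pm {a b : ZMod M} (ha : a = 1 ∨ a = -1) (hb : b = 1 ∨ b = -1) :
    a * b = 1 ∨ a * b = -1 := by
  rcases ha with rfl | rfl <;> rcases hb with rfl | rfl <;> simp

/-- [S48/HX-R2] -/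
theorem InDel.mul {X Y : M2} (hX : InDel M X) (hY : InDel M Y) : InDel M (X * Y) :=
  ⟨dvd_mul_low hX.1 hY.1, by rw [low_mul hX.1]; exact hxR2_pm hX.2 hY.2⟩

/-- [S48/HX-R2] -/
theorem InDel.of_mul {X Y : M2} (h : InDel M (Y * X)) (hX : InDel M X)
    (hdet : IsCoprime X.det (M : ℤ)) : InDel M Y := by
  have h1 : (M : ℤ) ∣ Y 1 0 * X 0 0 := by
    have h2 := h.1
    rw [Matrix.mul_apply, Fin.sum_univ_two] at h2
    exact (dvd_add_left (Dvd.dvd.mul_left hX.1 _)).1 h2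
  have hcop : IsCoprime (X 0 0) (M : ℤ) := by
    rw [Matrix.det_fin_two] at hdet
    obtain ⟨c, hc⟩ := hX.1
    obtain ⟨u, v, huv⟩ := hdet
    exact ⟨u * X 1 1, v - u * X 0 1 * c, by rw [hc] at huv; linear_combination huv⟩
  have hY : (M : ℤ) ∣ Y 1 0 := hcop.symm.dvd_of_dvd_mul_right h1
  refine ⟨hY, ?_⟩
  have h3 := h.2
  rw [low_mul hY] at h3
  have h4 : ((X 1 1 : ℤ) : ZMod M) * ((X 1 1 : ℤ) : ZMod M) = 1 := by
    rcases hX.2 with h | h <;> rw [h] <;> simp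
  have h5 : ((Y 1 1 : ℤ) : ZMod M)
      = (((Y 1 1 : ℤ) : ZMod M) * ((X 1 1 : ℤ) : ZMod M)) * ((X 1 1 : ℤ) : ZMod M) := by
    rw [mul_assoc, h4, mul_one]
  rw [h5]
  exact hxR2_pm h3 hX.2

/-- [S48/HX-R2] -/
theorem mem_GG_one_iff (g : SL(2, ℤ)) : g ∈ GG M 1 ↔ InDel M (g : M2) := by
  rw [mem_GG, mul_one, Gamma0_mem, ZMod.intCast_zmod_eq_zero_iff_dvd]
  rfl

/-- [S48/HX-R2] -/
theorem inDel_conj {g : SL(2, ℤ)} (hg : g ∈ Gamma0 M) {X : M2} (hX : InDel M X) :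
    InDel M ((g : M2) * X * ((g⁻¹ : SL(2, ℤ)) : M2)) := by
  have hg1 : (M : ℤ) ∣ (g : M2) 1 0 := by
    rw [Gamma0_mem, ZMod.intCast_zmod_eq_zero_iff_dvd] at hg
    exact hg
  have hg2 : (M : ℤ) ∣ ((g⁻¹ : SL(2, ℤ)) : M2) 1 0 := by
    have := (Gamma0 M).inv_mem hg
    rw [Gamma0_mem, ZMod.intCast_zmod_eq_zero_iff_dvd] at this
    exact this
  have h1 : (M : ℤ) ∣ ((g : M2) * X) 1 0 := dvd_mul_low hg1 hX.1
  refine ⟨dvd_mul_low h1 hg2, ?_⟩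
  rw [low_mul h1, low_mul hg1]
  have h2 : ((((g : M2) 1 1 : ℤ)) : ZMod M) * (((((g⁻¹ : SL(2, ℤ)) : M2) 1 1 : ℤ)) : ZMod M) = 1 := by
    rw [← low_mul hg1, ← Matrix.SpecialLinearGroup.coe_mul, mul_inv_cancel]
    simp
  have h3 : ((((g : M2) 1 1 : ℤ)) : ZMod M) * ((X 1 1 : ℤ) : ZMod M)
      * (((((g⁻¹ : SL(2, ℤ)) : M2) 1 1 : ℤ)) : ZMod M) = ((X 1 1 : ℤ) : ZMod M) := by
    rw [mul_right_comm, h2, one_mul]
  rw [h3]
  exact hX.2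

/-! ### R3 -/

variable (M) [NeZero M]

/-- the left factor of `matTG` -/
def hxR3_h (ℓ : ℕ) : Option (Fin ℓ) → SL(2, ℤ)
  | none => 1
  | some _ => gamD M (unitOf M ℓ)⁻¹

theorem matTG_eq (ℓ : ℕ) (i : Option (Fin ℓ)) :
    matTG M ℓ i = ((hxR3_h M ℓ i : SL(2, ℤ)) : M2) * matT ℓ i := by
  cases i with
  | none => simp [matTG, hxR3_h, matT]
  | some j => rfl

/-- [S48/HX-R3] -/
theorem det_matTG (ℓ : ℕ) (i : Option (Fin ℓ)) : (matTG M ℓ i).det = ℓ := by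
  rw [matTG_eq, Matrix.det_mul, Matrix.SpecialLinearGroup.det_coe, one_mul, det_matT]

/-- [S48/HX-R3] -/
theorem inDel_matTG {ℓ : ℕ} (hM : Nat.Coprime ℓ M) (i : Option (Fin ℓ)) :
    InDel M (matTG M ℓ i) := by
  cases i with
  | none =>
    refine ⟨?_, Or.inl ?_⟩ <;> simp [matTG, matD]
  | some j =>
    have hg : (M : ℤ) ∣ ((gamD M (unitOf M ℓ)⁻¹ : SL(2, ℤ)) : M2) 1 0 := by
      have := gamD_mem M (unitOf M ℓ)⁻¹
      rw [Gamma0_mem, ZMod.intCast_zmod_eq_zero_iff_dvd] at this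
      exact this
    show InDel M (((gamD M (unitOf M ℓ)⁻¹ : SL(2, ℤ)) : M2) * matU ℓ j)
    refine ⟨?_, Or.inl ?_⟩
    · rw [hxR1_mul_matU]
      exact hg
    · rw [low_mul hg]
      have h1 : ((((gamD M (unitOf M ℓ)⁻¹ : SL(2, ℤ)) : M2) 1 1 : ℤ) : ZMod M)
          = (((unitOf M ℓ)⁻¹ : (ZMod M)ˣ) : ZMod M) := gamD_apply M _
      have h2 : ((matU ℓ j 1 1 : ℤ) : ZMod M) = ((unitOf M ℓ : (ZMod M)ˣ) : ZMod M) := by
        rw [unitOf, dif_pos hM, ZMod.coe_unitOfCoprime]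
        simp [matU]
      rw [h1, h2, Units.inv_mul]

/-- [S48/HX-R3] right division in `Δ` -/
theorem exists_mul_matTG {ℓ : ℕ} (hℓ : ℓ.Prime) (hM : ¬ ℓ ∣ M) {X : M2} (hX : InDel M X)
    (hdet : (ℓ : ℤ) ∣ X.det) :
    ∃ (i : Option (Fin ℓ)) (Y : M2), InDel M Y ∧ X = Y * matTG M ℓ i := by
  have hcop : Nat.Coprime ℓ M := (Nat.Prime.coprime_iff_not_dvd hℓ).2 hM
  obtain ⟨i, Y₀, hY₀⟩ := exists_mul_matT hℓ X hdet
  have hXY : X = (Y₀ * (((hxR3_h M ℓ i)⁻¹ : SL(2, ℤ)) : M2)) * matTG M ℓ i := by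
    rw [matTG_eq, Matrix.mul_assoc, ← Matrix.mul_assoc _ _ (matT ℓ i),
      ← Matrix.SpecialLinearGroup.coe_mul, inv_mul_cancel, Matrix.SpecialLinearGroup.coe_one,
      Matrix.one_mul]
    exact hY₀
  refine ⟨i, _, ?_, hXY⟩
  refine InDel.of_mul (X := matTG M ℓ i) (by rw [← hXY]; exact hX) (inDel_matTG M hcop i) ?_
  rw [det_matTG]
  exact Nat.isCoprime_iff_coprime.2 hcop

/-- [S48/HX-R3] -/
theorem matTG_eq_of_smul {ℓ : ℕ} (hℓ : ℓ.Prime) {n : ℤ} (hn : ¬ (ℓ : ℤ) ∣ n) {Z : M2}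
    {i j : Option (Fin ℓ)} (h : n • matTG M ℓ i = Z * matTG M ℓ j) : i = j := by
  refine matT_eq_of_smul hℓ hn
    (Z := (((hxR3_h M ℓ i)⁻¹ : SL(2, ℤ)) : M2) * Z * ((hxR3_h M ℓ j : SL(2, ℤ)) : M2)) ?_
  have h1 : (((hxR3_h M ℓ i)⁻¹ : SL(2, ℤ)) : M2) * (n • matTG M ℓ i)
      = (((hxR3_h M ℓ i)⁻¹ : SL(2, ℤ)) : M2) * (Z * matTG M ℓ j) := by rw [h]
  rw [matTG_eq, matTG_eq, Matrix.mul_smul, ← Matrix.mul_assoc, ← Matrix.SpecialLinearGroup.coe_mul,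
    inv_mul_cancel, Matrix.SpecialLinearGroup.coe_one, Matrix.one_mul] at h1
  rw [h1]
  simp only [Matrix.mul_assoc]

end Fermat.Agent.S48.M
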