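import Fermat.Agent.S48.M.G1

/-!
# S48 / M / HX : transfer (Hecke) operators on `XL L = Hom_par(L.Γ, ℤ)`, pure group theory   (owner helper26)

`L : Lvl` (only `L.Γ` is used), `A : ι → M₂(ℤ)` a finite family.  `IsFam L A`:
* `det_ne` : `det A_i ≠ 0`;
* `red`    : the cosets `Γ A_i` are pairwise distinct (`A_i = ε A_j`, `ε ∈ Γ` implies `i = j`);
* `ex`     : `⋃ Γ A_i` is stable under right multiplication by `Γ` (`A_i γ = δ A_j`).
Then `HDataL L A γ` exists and is unique, and `c ↦ (γ ↦ ∑ i, c (δ_i γ))` is an endomorphism `h.tr` of `XL L`.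

## key S48/HX-T1 : `mat_cancel_right`, `trace_eq_of_conj`, `trace_pow_sq`   (~80 lines, Mathlib only)
* `mat_cancel_right` : multiply by `B.adjugate` (`Matrix.mul_adjugate`): `det B • X = det B • Y`; entrywise cancel (`mul_left_cancel₀`).
* `trace_eq_of_conj` : `Y * B * adj B = B * X * adj B`, so `det B • Y = B * X * adj B`; `trace (B * X * adj B) = trace (adj B * B * X) = det B * trace X`
  (`Matrix.trace_mul_cycle`/`trace_mul_comm`, `Matrix.adjugate_mul`).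
* `trace_pow_sq` : `t = trace g`, `t ^ 2 = 4` gives `t = 2 e`, `e = 1` or `e = -1`.  `N = g - e • 1` has `N * N = 0` (entrywise from `det g = 1`, `g 0 0 + g 1 1 = 2 e`; `Matrix.ext`, `fin_cases`, `nlinarith`/`linear_combination`)
  and `trace N = 0`.  Induction: `g ^ n = e ^ n • 1 + (n * e ^ (n - 1)) • N`; simpler: prove `∃ a : ℤ, (g ^ n : M₂) = e ^ n • 1 + a • N` by induction.  So `trace (g ^ n) = 2 e ^ n`.
## key S48/HX-T2 : `IsFam.nonempty`, `IsFam.unique`    (~80 lines)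
* `nonempty` : copy of `S16.Lower.LDataAux.nonempty_HData_of`.    * `unique` : `δ_i A_{σ i} = δ'_i A_{σ' i}`, so `A_{σ i} = (δ_i⁻¹ δ'_i) A_{σ' i}`, `red`; then `mat_cancel_right`, `Subtype.ext`, `Matrix.SpecialLinearGroup.ext`.
## key S48/HX-T3 : `HDataL.sum_mul`, `HDataL.pow`, `pow_σ`, `sum_pow`, `IsFam.sum_eq_zero_of_parabolic`   (~120 lines)
* `sum_mul` : `c (δ_i δ'_{σ i}) = c δ_i + c δ'_{σ i}`, `Equiv.sum_comp D.σ`.
* parabolic : `n = orderOf D.σ > 0` (`orderOf_pos`), `E = D.pow n` has `E.σ = 1`, so `A_i γ^n = E.δ_i A_i`, `trace (E.δ_i) = trace (γ^n)` (`trace_eq_of_conj`), `trace_pow_sq`; `c (E.δ_i) = 0`;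
  `n * ∑ c (D.δ_i) = 0`.
## key S48/HX-T4 : `IsFam.exists_transfer`, `IsFam.eq_tr`   (~100 lines)
  `F c γ = ∑ i, c ((h.nonempty γ).some.δ i)`; additive in `γ` by `sum_mul` + `unique`; parabolic by the previous key; linear in `c`.
## key S48/HX-T5 : `IsFam.mul`, `IsFam.tr_mul_tr`, `IsFam.tr_eq_of_equiv`   (~200 lines)
* `mul` : `(B_k A_i) γ = B_k δ_i A_{σ i} = δ'_k B_{k'} A_{σ i}`.
* `tr_mul_tr` : `D : HDataL A γ`, `E i : HDataL B (D.δ i)`; the data `σ'' (k, i) = ((E i).σ k, D.σ i)` (a permutation: `Equiv.prodShear`-like, or use `unique`/`nonempty` and only compare `δ`: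
  take `D'' = (hAB.nonempty γ).some`; from `B_k A_i γ = (E i).δ k * (B_{(E i).σ k} A_{D.σ i})` and `D''.rel` get by `red` + `mat_cancel_right` `D''.δ (k, i) = (E i).δ k`), `Fintype.sum_prod_type_right`.
* `tr_eq_of_equiv` : choose `φ`, `ε`; `φ` injective by `hA'.red` (`A'_i = ε_i A_{φ i}`, `A'_j = ε_j A_{φ i}` give `A'_i = ε_i ε_j⁻¹ A'_j`), bijective by `hcard` (`Fintype.bijective_iff_injective_and_card`).
  `D : HDataL A γ`; `A'_i γ = ε_i δ_{φ i} A_{σ φ i} = (ε_i δ_{φ i} ε_{i'}⁻¹) A'_{i'}`, `i' = φ⁻¹ σ φ i`; the sum of `c` telescopes (`Equiv.sum_comp`).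
-/

set_option autoImplicit false

open ModularCurve.Period Fermat.Agent.S24 Fermat.Agent.S29
open scoped MatrixGroups

noncomputable section

namespace Fermat.Agent.S48.M

/-- integral `2 × 2` matrices -/
abbrev M2 : Type := Matrix (Fin 2) (Fin 2) ℤ

/-! ### matrices -/

/-- [S48/HX-T1] -/
theorem mat_cancel_right {X Y B : M2} (hB : B.det ≠ 0) (h : X * B = Y * B) : X = Y := by
  have h1 : B.det • X = B.det • Y := by
    have := congrArg (· * B.adjugate) h
    simp only [Matrix.mul_assoc, Matrix.mul_adjugate, Matrix.mul_smul, Matrix.mul_one] at this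
    exact this
  ext i j
  have h2 := congrFun (congrFun h1 i) j
  simp only [Matrix.smul_apply, smul_eq_mul] at h2
  exact mul_left_cancel₀ hB h2

/-- [S48/HX-T1] -/
theorem trace_eq_of_conj {X Y B : M2} (hB : B.det ≠ 0) (h : B * X = Y * B) :
    Y.trace = X.trace := by
  have h1 : B.det * Y.trace = B.det * X.trace := by
    have e1 : (Y * B * B.adjugate).trace = B.det * Y.trace := by
      rw [Matrix.mul_assoc, Matrix.mul_adjugate, Matrix.mul_smul, Matrix.mul_one,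
        Matrix.trace_smul, smul_eq_mul]
    have e2 : (B * X * B.adjugate).trace = B.det * X.trace := by
      rw [Matrix.trace_mul_comm, ← Matrix.mul_assoc, Matrix.adjugate_mul, Matrix.smul_mul,
        Matrix.one_mul, Matrix.trace_smul, smul_eq_mul]
    rw [← e1, ← e2, h]
  exact mul_left_cancel₀ hB h1

theorem hxT1_sq (m : M2) : m * m = m.trace • m - m.det • (1 : M2) := by
  ext i j
  rw [Matrix.sub_apply, Matrix.smul_apply, Matrix.smul_apply, smul_eq_mul, smul_eq_mul,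
    Matrix.mul_apply, Fin.sum_univ_two, Matrix.trace_fin_two, Matrix.det_fin_two]
  fin_cases i <;> fin_cases j <;> simp <;> ring

theorem hxT1_trace_rec (m : M2) (b : ℕ) :
    (m ^ (b + 2)).trace = m.trace * (m ^ (b + 1)).trace - m.det * (m ^ b).trace := by
  have h : m ^ (b + 2) = m.trace • m ^ (b + 1) - m.det • m ^ b := by
    rw [pow_add, pow_two, hxT1_sq, mul_sub, mul_smul_comm, mul_smul_comm, mul_one, ← pow_succ]
  rw [h, Matrix.trace_sub, Matrix.trace_smul, Matrix.trace_smul, smul_eq_mul, smul_eq_mul]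

/-- [S48/HX-T1] -/
theorem trace_pow_sq (g : SL(2, ℤ)) (h : (g : M2).trace ^ 2 = 4) (n : ℕ) :
    ((g ^ n : SL(2, ℤ)) : M2).trace ^ 2 = 4 := by
  rw [Matrix.SpecialLinearGroup.coe_pow]
  set μ : M2 := (g : M2) with hμ
  have hdet : μ.det = 1 := g.2
  obtain ⟨e, he, ht⟩ : ∃ e : ℤ, e * e = 1 ∧ μ.trace = 2 * e := by
    have h1 : (μ.trace - 2) * (μ.trace + 2) = 0 := by ring_nf; linarith
    rcases mul_eq_zero.1 h1 with h2 | h2
    · exact ⟨1, by norm_num, by linarith⟩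
    · exact ⟨-1, by norm_num, by linarith⟩
  have key : ∀ n : ℕ, (μ ^ n).trace = 2 * e ^ n ∧ (μ ^ (n + 1)).trace = 2 * e ^ (n + 1) := by
    intro n
    induction n with
    | zero => exact ⟨by simp, by simpa using ht⟩
    | succ n ih =>
      refine ⟨ih.2, ?_⟩
      rw [hxT1_trace_rec, ih.1, ih.2, ht, hdet]
      have : e ^ (n + 1 + 1) = e ^ n * (e * e) := by ring
      rw [this, he]
      have h3 : e * e ^ (n + 1) = e ^ n * (e * e) := by ring
      linear_combination 4 * h3 + (4 * e ^ n) * he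
  rw [(key n).1, mul_pow, ← pow_mul, mul_comm n 2, pow_mul, pow_two e, he, one_pow]
  norm_num

variable {L : Lvl} {ι κ : Type}

theorem hx_coe_mul (a b : L.Γ) : (((a * b : L.Γ) : SL(2, ℤ)) : M2) =
    ((a : SL(2, ℤ)) : M2) * ((b : SL(2, ℤ)) : M2) := by
  rw [Subgroup.coe_mul, Matrix.SpecialLinearGroup.coe_mul]

theorem hx_coe_inv_mul (a : L.Γ) : (((a⁻¹ : L.Γ) : SL(2, ℤ)) : M2) * ((a : SL(2, ℤ)) : M2) = 1 := by
  rw [← hx_coe_mul, inv_mul_cancel]
  simp

theorem hx_coe_mul_inv (a : L.Γ) : ((a : SL(2, ℤ)) : M2) * (((a⁻¹ : L.Γ) : SL(2, ℤ)) : M2) = 1 := by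
  rw [← hx_coe_mul, mul_inv_cancel]
  simp

theorem hx_coe_inj {a b : L.Γ} (h : ((a : SL(2, ℤ)) : M2) = ((b : SL(2, ℤ)) : M2)) : a = b :=
  Subtype.ext (Subtype.ext h)

/-- a system of representatives of a right `Γ`-stable finite union of cosets `Γ A_i` -/
structure IsFam (L : Lvl) (A : ι → M2) : Prop where
  det_ne : ∀ i, (A i).det ≠ 0
  red : ∀ (ε : L.Γ) (i j : ι), A i = ((ε : SL(2, ℤ)) : M2) * A j → i = j
  ex : ∀ (γ : L.Γ) (i : ι), ∃ (j : ι) (δ : L.Γ),
    A i * ((γ : SL(2, ℤ)) : M2) = ((δ : SL(2, ℤ)) : M2) * A j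

namespace HDataL

variable {A : ι → M2} {γ γ' : L.Γ}

/-- the data of a product -/
def mul (D : HDataL L A γ) (D' : HDataL L A γ') : HDataL L A (γ * γ') where
  σ := D.σ.trans D'.σ
  δ i := D.δ i * D'.δ (D.σ i)
  rel i := by
    rw [Subgroup.coe_mul, Matrix.SpecialLinearGroup.coe_mul, ← Matrix.mul_assoc, D.rel,
      Matrix.mul_assoc, D'.rel, ← Matrix.mul_assoc, Subgroup.coe_mul,
      Matrix.SpecialLinearGroup.coe_mul]
    rfl

/-- the data of `1` -/
def one (A : ι → M2) : HDataL L A 1 where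
  σ := 1
  δ _ := 1
  rel i := by simp

/-- [S48/HX-T3] -/
theorem sum_mul [Fintype ι] (D : HDataL L A γ) (D' : HDataL L A γ') (c : Additive L.Γ →+ ℤ) :
    ∑ i, c (Additive.ofMul ((D.mul D').δ i)) =
      ∑ i, c (Additive.ofMul (D.δ i)) + ∑ i, c (Additive.ofMul (D'.δ i)) := by
  have h1 : ∀ i, c (Additive.ofMul ((D.mul D').δ i)) =
      c (Additive.ofMul (D.δ i)) + c (Additive.ofMul (D'.δ (D.σ i))) := by
    intro i
    change c (Additive.ofMul (D.δ i * D'.δ (D.σ i))) = _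
    rw [ofMul_mul, map_add]
  simp_rw [h1]
  rw [Finset.sum_add_distrib, Equiv.sum_comp D.σ (fun i => c (Additive.ofMul (D'.δ i)))]

/-- [S48/HX-T3] the data of a power -/
theorem exists_pow [Fintype ι] (D : HDataL L A γ) (n : ℕ) : ∃ E : HDataL L A (γ ^ n), E.σ = D.σ ^ n ∧
    ∀ c : Additive L.Γ →+ ℤ, ∑ i, c (Additive.ofMul (E.δ i)) = n * ∑ i, c (Additive.ofMul (D.δ i)) := by
  induction n with
  | zero =>
    rw [pow_zero]
    refine ⟨one A, rfl, fun c => ?_⟩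
    simp [one]
  | succ n ih =>
    obtain ⟨E, hE1, hE2⟩ := ih
    rw [pow_succ]
    refine ⟨E.mul D, ?_, fun c => ?_⟩
    · change E.σ.trans D.σ = _
      rw [hE1, pow_succ']
      rfl
    · rw [sum_mul, hE2]
      push_cast
      ring

end HDataL

namespace IsFam

variable {A : ι → M2} {B : κ → M2}

/-- [S48/HX-T2] -/
theorem nonempty [Finite ι] (h : IsFam L A) (γ : L.Γ) : Nonempty (HDataL L A γ) := by
  choose σ δ hrel using h.ex γ
  have hσ : Function.Injective σ := by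
    intro i i₂ hi
    apply h.red (δ i * (δ i₂)⁻¹) i i₂
    have h1 := hrel i
    have h2 := hrel i₂
    rw [← hi] at h2
    have h3 : A (σ i) = (((δ i₂)⁻¹ : L.Γ) : SL(2, ℤ)) * (A i₂ * ((γ : SL(2, ℤ)) : M2)) := by
      rw [h2, ← Matrix.mul_assoc, hx_coe_inv_mul, Matrix.one_mul]
    calc A i = A i * ((γ : SL(2, ℤ)) : M2) * (((γ⁻¹ : L.Γ) : SL(2, ℤ)) : M2) := by
            rw [Matrix.mul_assoc, hx_coe_mul_inv, Matrix.mul_one]
      _ = _ := by
            rw [h1, h3, hx_coe_mul]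
            simp only [Matrix.mul_assoc]
            rw [hx_coe_mul_inv, Matrix.mul_one]
  exact ⟨⟨Equiv.ofBijective σ (Finite.injective_iff_bijective.mp hσ), δ, hrel⟩⟩

theorem hxT2_aux (h : IsFam L A) {i j : ι} {a b : L.Γ}
    (e : ((a : SL(2, ℤ)) : M2) * A i = ((b : SL(2, ℤ)) : M2) * A j) : i = j ∧ a = b := by
  have h1 : i = j := by
    apply h.red (a⁻¹ * b) i j
    rw [hx_coe_mul, Matrix.mul_assoc, ← e, ← Matrix.mul_assoc, hx_coe_inv_mul, Matrix.one_mul]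
  subst h1
  exact ⟨rfl, hx_coe_inj (mat_cancel_right (h.det_ne i) e)⟩

/-- [S48/HX-T2] -/
theorem unique (h : IsFam L A) {γ : L.Γ} (D D' : HDataL L A γ) : D.σ = D'.σ ∧ D.δ = D'.δ := by
  have key : ∀ i, D.σ i = D'.σ i ∧ D.δ i = D'.δ i := fun i =>
    hxT2_aux h ((D.rel i).symm.trans (D'.rel i))
  exact ⟨Equiv.ext fun i => (key i).1, funext fun i => (key i).2⟩

/-- [S48/HX-T3] -/
theorem sum_eq_zero_of_parabolic [Fintype ι] (h : IsFam L A) {c : Additive L.Γ →+ ℤ}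
    (hc : c ∈ XL L) {γ : L.Γ} (hγ : ((γ : SL(2, ℤ)) : M2).trace ^ 2 = 4) (D : HDataL L A γ) :
    ∑ i, c (Additive.ofMul (D.δ i)) = 0 := by
  have hn : 0 < orderOf D.σ := orderOf_pos D.σ
  obtain ⟨E, hE1, hE2⟩ := D.exists_pow (orderOf D.σ)
  rw [pow_orderOf_eq_one] at hE1
  have h0 : ∀ i, c (Additive.ofMul (E.δ i)) = 0 := by
    intro i
    apply hc
    have h1 := E.rel i
    rw [hE1] at h1
    rw [trace_eq_of_conj (h.det_ne i) h1, SubgroupClass.coe_pow]
    exact trace_pow_sq _ hγ _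
  have h2 := hE2 c
  rw [Finset.sum_eq_zero fun i _ => h0 i] at h2
  rcases mul_eq_zero.1 h2.symm with h3 | h3
  · exact absurd (by exact_mod_cast h3) hn.ne'
  · exact h3

theorem hxT4_sum_eq [Fintype ι] (h : IsFam L A) {γ : L.Γ} (D D' : HDataL L A γ)
    (c : Additive L.Γ →+ ℤ) :
    ∑ i, c (Additive.ofMul (D.δ i)) = ∑ i, c (Additive.ofMul (D'.δ i)) := by
  rw [(h.unique D D').2]

/-- the transfer of a homomorphism -/
def hxT4_hom [Fintype ι] (h : IsFam L A) (c : Additive L.Γ →+ ℤ) : Additive L.Γ →+ ℤ :=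
  AddMonoidHom.mk' (fun γ => ∑ i, c (Additive.ofMul ((h.nonempty γ.toMul).some.δ i))) (by
    intro γ γ'
    change ∑ i, c (Additive.ofMul ((h.nonempty (γ.toMul * γ'.toMul)).some.δ i)) = _
    rw [hxT4_sum_eq h _ ((h.nonempty γ.toMul).some.mul (h.nonempty γ'.toMul).some) c,
      HDataL.sum_mul])

theorem hxT4_hom_apply [Fintype ι] (h : IsFam L A) (c : Additive L.Γ →+ ℤ) {γ : L.Γ}
    (D : HDataL L A γ) : hxT4_hom h c (Additive.ofMul γ) = ∑ i, c (Additive.ofMul (D.δ i)) :=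
  hxT4_sum_eq h _ D c

/-- [S48/HX-T4] the transfer operator -/
theorem exists_transfer [Fintype ι] (h : IsFam L A) : ∃ T : Module.End ℤ (XL L), ∀ c : XL L,
    IsTransferL L A (c : Additive L.Γ →+ ℤ) (T c : Additive L.Γ →+ ℤ) := by
  have hmem : ∀ c : XL L, hxT4_hom h (c : Additive L.Γ →+ ℤ) ∈ XL L := by
    intro c γ hγ
    rw [hxT4_hom_apply h _ (h.nonempty γ).some]
    exact h.sum_eq_zero_of_parabolic c.2 hγ _
  let T₀ : XL L →+ XL L :=
    AddMonoidHom.mk' (fun c => ⟨hxT4_hom h (c : Additive L.Γ →+ ℤ), hmem c⟩) (by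
      intro c c'
      apply Subtype.ext
      ext γ
      change ∑ i, ((c : Additive L.Γ →+ ℤ) + (c' : Additive L.Γ →+ ℤ)) _ =
        ∑ i, (c : Additive L.Γ →+ ℤ) _ + ∑ i, (c' : Additive L.Γ →+ ℤ) _
      simp only [AddMonoidHom.add_apply]
      rw [Finset.sum_add_distrib])
  exact ⟨T₀.toIntLinearMap, fun c γ D => hxT4_hom_apply h _ D⟩

/-- the transfer operator of a family -/
def tr [Fintype ι] (h : IsFam L A) : Module.End ℤ (XL L) := h.exists_transfer.choose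

theorem isTransfer_tr [Fintype ι] (h : IsFam L A) (c : XL L) :
    IsTransferL L A (c : Additive L.Γ →+ ℤ) (h.tr c : Additive L.Γ →+ ℤ) :=
  h.exists_transfer.choose_spec c

/-- [S48/HX-T4] -/
theorem eq_tr [Fintype ι] (h : IsFam L A) {c : XL L} {c' : Additive L.Γ →+ ℤ}
    (hc : IsTransferL L A (c : Additive L.Γ →+ ℤ) c') : c' = (h.tr c : Additive L.Γ →+ ℤ) := by
  ext γ
  have D := (h.nonempty γ).some
  exact (hc γ D).trans (h.isTransfer_tr c γ D).symm

/-- [S48/HX-T5] -/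
theorem mul (hA : IsFam L A) (hB : IsFam L B)
    (hred : ∀ (ε : L.Γ) (x y : κ × ι),
      B x.1 * A x.2 = ((ε : SL(2, ℤ)) : M2) * (B y.1 * A y.2) → x = y) :
    IsFam L (fun x : κ × ι => B x.1 * A x.2) where
  det_ne x := by
    rw [Matrix.det_mul]
    exact mul_ne_zero (hB.det_ne _) (hA.det_ne _)
  red := hred
  ex γ x := by
    obtain ⟨j, δ, h1⟩ := hA.ex γ x.2
    obtain ⟨k, δ', h2⟩ := hB.ex δ x.1
    refine ⟨(k, j), δ', ?_⟩
    change B x.1 * A x.2 * _ = _ * (B k * A j)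
    rw [Matrix.mul_assoc, h1, ← Matrix.mul_assoc, h2, Matrix.mul_assoc]

/-- [S48/HX-T5] -/
theorem tr_mul_tr [Fintype ι] [Fintype κ] (hA : IsFam L A) (hB : IsFam L B)
    (hAB : IsFam L (fun x : κ × ι => B x.1 * A x.2)) : hA.tr * hB.tr = hAB.tr := by
  ext c γ
  have D := (hA.nonempty γ).some
  have E : ∀ i, HDataL L B (D.δ i) := fun i => (hB.nonempty (D.δ i)).some
  have D'' := (hAB.nonempty γ).some
  change ((hA.tr (hB.tr c) : XL L) : Additive L.Γ →+ ℤ) (Additive.ofMul γ) =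
    ((hAB.tr c : XL L) : Additive L.Γ →+ ℤ) (Additive.ofMul γ)
  rw [hA.isTransfer_tr (hB.tr c) γ D, hAB.isTransfer_tr c γ D'', Fintype.sum_prod_type_right]
  refine Finset.sum_congr rfl fun i _ => ?_
  rw [hB.isTransfer_tr c (D.δ i) (E i)]
  refine Finset.sum_congr rfl fun k _ => ?_
  have h1 : ((D''.δ (k, i) : SL(2, ℤ)) : M2) * (B (D''.σ (k, i)).1 * A (D''.σ (k, i)).2) =
      (((E i).δ k : SL(2, ℤ)) : M2) * (B ((E i).σ k, D.σ i).1 * A ((E i).σ k, D.σ i).2) := by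
    rw [← D''.rel (k, i)]
    change B k * A i * _ = _ * (B ((E i).σ k) * A (D.σ i))
    rw [Matrix.mul_assoc, D.rel i, ← Matrix.mul_assoc, (E i).rel k, Matrix.mul_assoc]
  rw [(hxT2_aux hAB h1).2]

/-- [S48/HX-T5] -/
theorem tr_eq_of_equiv {ι' : Type} [Fintype ι] [Fintype ι'] {A' : ι' → M2} (hA : IsFam L A)
    (hA' : IsFam L A') (hcard : Fintype.card ι' = Fintype.card ι)
    (h : ∀ i', ∃ (i : ι) (ε : L.Γ), A' i' = ((ε : SL(2, ℤ)) : M2) * A i) : hA'.tr = hA.tr := by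
  choose φ ε hφ using h
  have hinj : Function.Injective φ := by
    intro i j hij
    apply hA'.red (ε i * (ε j)⁻¹) i j
    rw [hφ i, hφ j, hij, hx_coe_mul, Matrix.mul_assoc, ← Matrix.mul_assoc _ _ (A (φ j)),
      hx_coe_inv_mul, Matrix.one_mul]
  let e : ι' ≃ ι := Equiv.ofBijective φ ((Fintype.bijective_iff_injective_and_card φ).2 ⟨hinj, hcard⟩)
  have he : ∀ i, e i = φ i := fun i => rfl
  ext c γ
  have D := (hA.nonempty γ).some
  let σ' : Equiv.Perm ι' := (e.trans D.σ).trans e.symm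
  have hσ' : ∀ i, φ (σ' i) = D.σ (φ i) := fun i => by
    rw [← he]
    exact e.apply_symm_apply _
  let D' : HDataL L A' γ :=
    { σ := σ'
      δ := fun i => ε i * D.δ (φ i) * (ε (σ' i))⁻¹
      rel := fun i => by
        rw [hφ i, hφ (σ' i), hσ' i, Matrix.mul_assoc, D.rel (φ i), hx_coe_mul, hx_coe_mul]
        have h2 : (((ε (σ' i))⁻¹ : L.Γ) : SL(2, ℤ)) * (((ε (σ' i) : SL(2, ℤ)) : M2) *
            A (D.σ (φ i))) = A (D.σ (φ i)) := by
          rw [← Matrix.mul_assoc, hx_coe_inv_mul, Matrix.one_mul]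
        rw [Matrix.mul_assoc _ _ (((ε (σ' i) : SL(2, ℤ)) : M2) * A (D.σ (φ i))), h2,
          Matrix.mul_assoc] }
  change ((hA'.tr c : XL L) : Additive L.Γ →+ ℤ) (Additive.ofMul γ) =
    ((hA.tr c : XL L) : Additive L.Γ →+ ℤ) (Additive.ofMul γ)
  rw [hA'.isTransfer_tr c γ D', hA.isTransfer_tr c γ D]
  have h1 : ∀ i, (c : Additive L.Γ →+ ℤ) (Additive.ofMul (D'.δ i)) =
      (c : Additive L.Γ →+ ℤ) (Additive.ofMul (ε i)) +
        (c : Additive L.Γ →+ ℤ) (Additive.ofMul (D.δ (e i))) -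
        (c : Additive L.Γ →+ ℤ) (Additive.ofMul (ε (σ' i))) := by
    intro i
    change (c : Additive L.Γ →+ ℤ) (Additive.ofMul (ε i * D.δ (φ i) * (ε (σ' i))⁻¹)) = _
    rw [ofMul_mul, ofMul_mul, ofMul_inv, map_add, map_add, map_neg, he]
    ring
  simp_rw [h1]
  rw [Finset.sum_sub_distrib, Finset.sum_add_distrib,
    Equiv.sum_comp σ' (fun i => (c : Additive L.Γ →+ ℤ) (Additive.ofMul (ε i))),
    Equiv.sum_comp e (fun i => (c : Additive L.Γ →+ ℤ) (Additive.ofMul (D.δ i)))]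
  ring

end IsFam

end Fermat.Agent.S48.M
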